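import Fermat.Agent.S55.G.Descent

/-! # S55 G1a (PL1): the decomposition group of a place is the fixing subgroup of `locF` -/

set_option autoImplicit false
set_option linter.unusedSectionVars false
set_option linter.unusedVariables false
set_option linter.style.haveILetI false

namespace Fermat.Agent.S55Lib

noncomputable section

instance isGaloisOm (q : Nat.Primes) : IsGalois ℚ_[(q : ℕ)] (Om q) := by
  haveI : Algebra.IsAlgebraic ℚ_[(q : ℕ)] (Om q) := AlgebraicClosure.isAlgebraic _
  haveI : IsAlgClosure ℚ_[(q : ℕ)] (Om q) := ⟨inferInstance, inferInstance⟩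
  haveI : Normal ℚ_[(q : ℕ)] (Om q) := IsAlgClosure.normal _ _
  exact ⟨⟩

theorem mem_fixingSubgroup_locF_iff (q : Nat.Primes) (g : GQ) (F : IntermediateField ℚ Qbar)
    (h : Gq q) : h ∈ (locF q g F).fixingSubgroup ↔ g⁻¹ * rq q h * g ∈ F.fixingSubgroup := by
  rw [IntermediateField.mem_fixingSubgroup_iff, IntermediateField.mem_fixingSubgroup_iff]
  constructor
  · intro H x hx
    have h1 : h (iq q (g x)) = iq q (g x) :=
      H _ (IntermediateField.subset_adjoin _ _ ⟨x, hx, rfl⟩)
    rw [← iq_rq] at h1
    have h2 : rq q h (g x) = g x := (iq q).toRingHom.injective h1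
    show g⁻¹ (rq q h (g x)) = x
    rw [h2]
    exact g.symm_apply_apply x
  · intro H
    have hle : locF q g F ≤ IntermediateField.fixedField (Subgroup.zpowers h) := by
      rw [locF, IntermediateField.adjoin_le_iff]
      rintro _ ⟨x, hx, rfl⟩
      rw [SetLike.mem_coe, IntermediateField.mem_fixedField_iff]
      intro k hk
      obtain ⟨n, rfl⟩ := Subgroup.mem_zpowers_iff.mp hk
      have h1 : h (iq q (g x)) = iq q (g x) := by
        rw [← iq_rq]
        have h2 : g⁻¹ (rq q h (g x)) = x := H x hx
        have h3 : rq q h (g x) = g x := by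
          have h5 := congrArg g h2
          rwa [show g (g⁻¹ (rq q h (g x))) = rq q h (g x) from g.apply_symm_apply _] at h5
        rw [h3]
      have h4 : h ∈ MulAction.stabilizer (Gq q) (iq q (g x)) := h1
      exact (Subgroup.zpow_mem _ h4 n)
    intro y hy
    have := hle hy
    rw [IntermediateField.mem_fixedField_iff] at this
    exact this h (Subgroup.mem_zpowers h)

theorem cmp_mem_locF (F : IntermediateField ℚ Qbar) [FiniteDimensional ℚ F] (x : JJ)
    (hx : x ∈ JF F) (q : Nat.Primes) (g : GQ) : ((cmp x q g : (Om q)ˣ) : Om q) ∈ locF q g F := by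
  have hF : IntermediateField.fixedField (locF q g F).fixingSubgroup = locF q g F :=
    InfiniteGalois.fixedField_fixingSubgroup _
  rw [← hF, IntermediateField.mem_fixedField_iff]
  intro h hh
  rw [mem_fixingSubgroup_locF_iff] at hh
  have h1 : cmp x q (rq q h * g) = h • cmp x q g := cmp_rq x q h g
  have h2 : cmp x q (g * (g⁻¹ * rq q h * g)) = cmp x q g := mem_JF_iff.mp hx _ hh q g
  have h3 : g * (g⁻¹ * rq q h * g) = rq q h * g := by group
  rw [h3, h1] at h2
  exact congrArg Units.val h2

end

end Fermat.Agent.S55Lib
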