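import Fermat.Agent.S55.G.Descent

/-! # S55 G1a (PL4): places as double cosets, representatives -/

set_option autoImplicit false
set_option linter.unusedSectionVars false
set_option linter.unusedVariables false

namespace Fermat.Agent.S55Lib

noncomputable section

theorem SamePlace.refl (q : Nat.Primes) (F : IntermediateField ℚ Qbar) (g : GQ) :
    SamePlace q F g g := ⟨1, 1, one_mem _, by simp⟩

theorem SamePlace.symm {q : Nat.Primes} {F : IntermediateField ℚ Qbar} {g g' : GQ}
    (h : SamePlace q F g g') : SamePlace q F g' g := by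
  obtain ⟨k, s, hs, rfl⟩ := h
  refine ⟨k⁻¹, s⁻¹, inv_mem hs, ?_⟩
  rw [map_inv]
  group

theorem SamePlace.trans {q : Nat.Primes} {F : IntermediateField ℚ Qbar} {g g' g'' : GQ}
    (h : SamePlace q F g g') (h' : SamePlace q F g' g'') : SamePlace q F g g'' := by
  obtain ⟨k, s, hs, rfl⟩ := h
  obtain ⟨k', s', hs', rfl⟩ := h'
  refine ⟨k' * k, s * s', mul_mem hs hs', ?_⟩
  rw [map_mul]
  group

/-- the norm at a place only depends on the place -/
theorem SamePlace.norm_eq {q : Nat.Primes} {F : IntermediateField ℚ Qbar} {g g' : GQ}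
    (h : SamePlace q F g g') {a : Qbar} (ha : a ∈ F) : ‖iq q (g' a)‖ = ‖iq q (g a)‖ := by
  obtain ⟨k, s, hs, rfl⟩ := h
  rw [IntermediateField.mem_fixingSubgroup_iff] at hs
  have h1 : (rq q k * g * s) a = rq q k (g a) := by
    show rq q k (g (s a)) = rq q k (g a)
    rw [show s a = a from hs a ha]
  rw [h1, iq_rq, norm_gq]

theorem SamePlace.norm_cmp_eq {q : Nat.Primes} {F : IntermediateField ℚ Qbar} {g g' : GQ}
    (h : SamePlace q F g g') {x : JJ} (hx : x ∈ JF F) :
    ‖((cmp x q g' : (Om q)ˣ) : Om q)‖ = ‖((cmp x q g : (Om q)ˣ) : Om q)‖ := by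
  obtain ⟨k, s, hs, rfl⟩ := h
  rw [mem_JF_iff.mp hx s hs q (rq q k * g), cmp_rq]
  exact norm_gq q k _

theorem finite_places (F : IntermediateField ℚ Qbar) [FiniteDimensional ℚ F] (q : Nat.Primes) :
    ∃ R : Finset GQ, ∀ g, ∃ g₀ ∈ R, SamePlace q F g₀ g := by
  classical
  haveI := finiteIndex_fix F
  haveI : Finite (GQ ⧸ F.fixingSubgroup) := Subgroup.finite_quotient_of_finiteIndex
  haveI : Fintype (GQ ⧸ F.fixingSubgroup) := Fintype.ofFinite _
  refine ⟨Finset.univ.image (fun c : GQ ⧸ F.fixingSubgroup => Quotient.out c), fun g => ?_⟩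
  refine ⟨Quotient.out (QuotientGroup.mk g : GQ ⧸ F.fixingSubgroup),
    Finset.mem_image_of_mem _ (Finset.mem_univ _), 1, ?_⟩
  have h1 : (QuotientGroup.mk (Quotient.out (QuotientGroup.mk g : GQ ⧸ F.fixingSubgroup)) :
      GQ ⧸ F.fixingSubgroup) = QuotientGroup.mk g := Quotient.out_eq' _
  rw [QuotientGroup.eq] at h1
  exact ⟨_, h1, by rw [map_one]; group⟩

theorem exists_reps (F : IntermediateField ℚ Qbar) [FiniteDimensional ℚ F] (q : Nat.Primes) :
    ∃ R : Finset GQ, (∀ g, ∃ g₀ ∈ R, SamePlace q F g₀ g) ∧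
      ∀ g ∈ R, ∀ g' ∈ R, SamePlace q F g g' → g = g' := by
  classical
  obtain ⟨R, hR⟩ := finite_places F q
  let st : Setoid GQ := ⟨SamePlace q F, SamePlace.refl q F, SamePlace.symm, SamePlace.trans⟩
  let c : GQ → GQ := fun g => (Quotient.out (Quotient.mk st g))
  have hc : ∀ g, SamePlace q F (c g) g := fun g => Quotient.exact (Quotient.out_eq (Quotient.mk st g))
  have hc' : ∀ g g', SamePlace q F g g' → c g = c g' := by
    intro g g' h
    have : Quotient.mk st g = Quotient.mk st g' := Quotient.sound h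
    simp only [c, this]
  refine ⟨R.image c, fun g => ?_, ?_⟩
  · obtain ⟨g₀, hg₀, h⟩ := hR g
    exact ⟨c g₀, Finset.mem_image_of_mem _ hg₀, (hc g₀).trans h⟩
  · intro g hg g' hg' h
    obtain ⟨a, -, rfl⟩ := Finset.mem_image.mp hg
    obtain ⟨b, -, rfl⟩ := Finset.mem_image.mp hg'
    exact hc' _ _ (((hc a).symm.trans h).trans (hc b))

end

end Fermat.Agent.S55Lib
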