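import Fermat.Agent.S55.G.LocFix
import Fermat.Agent.S55.G.Reps

/-! # S55 G1a (PL3): ideles supported at a single place -/

set_option autoImplicit false
set_option linter.unusedSectionVars false
set_option linter.unusedVariables false
set_option linter.style.haveILetI false

namespace Fermat.Agent.S55Lib

noncomputable section

/-- every number field lies in a finite normal number field -/
theorem exists_stableF_ge (F : IntermediateField ℚ Qbar) [FiniteDimensional ℚ F] :
    ∃ L : IntermediateField ℚ Qbar, FiniteDimensional ℚ L ∧ StableF L ∧ F ≤ L := by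
  haveI : Algebra.IsAlgebraic ℚ Qbar := AlgebraicClosure.isAlgebraic ℚ
  refine ⟨IntermediateField.normalClosure ℚ F Qbar,
    normalClosure.is_finiteDimensional _ _ _, ?_, IntermediateField.le_normalClosure _⟩
  intro σ x hx
  haveI : Normal ℚ (IntermediateField.normalClosure ℚ F Qbar) := normalClosure.normal _ _ _
  have := (IntermediateField.normal_iff_forall_map_le'.mp this) σ
  exact this ⟨x, hx, rfl⟩

/-- the local function of a single-place idele -/
def PL3_fun (F : IntermediateField ℚ Qbar) (q : Nat.Primes) (g₀ : GQ) (z : (Om q)ˣ) :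
    GQ → (Om q)ˣ := by
  classical
  exact fun g => if H : SamePlace q F g₀ g then (Classical.choose H) • z else 1

theorem PL3_fun_apply (F : IntermediateField ℚ Qbar) (q : Nat.Primes) (g₀ : GQ) (z : (Om q)ˣ)
    (hz : (z : Om q) ∈ locF q g₀ F) (k : Gq q) (s : GQ) (hs : s ∈ F.fixingSubgroup) :
    PL3_fun F q g₀ z (rq q k * g₀ * s) = k • z := by
  classical
  have H : SamePlace q F g₀ (rq q k * g₀ * s) := ⟨k, s, hs, rfl⟩
  have h1 : PL3_fun F q g₀ z (rq q k * g₀ * s) = (Classical.choose H) • z := by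
    unfold PL3_fun
    rw [dif_pos H]
  rw [h1]
  obtain ⟨s', hs', he⟩ := Classical.choose_spec H
  set k' := Classical.choose H
  have h2 : g₀⁻¹ * rq q (k'⁻¹ * k) * g₀ = s' * s⁻¹ := by
    rw [map_mul, map_inv]
    have h3 : rq q k * g₀ = rq q k' * g₀ * s' * s⁻¹ := by rw [← he]; group
    calc g₀⁻¹ * ((rq q k')⁻¹ * rq q k) * g₀ = g₀⁻¹ * (rq q k')⁻¹ * (rq q k * g₀) := by group
      _ = g₀⁻¹ * (rq q k')⁻¹ * (rq q k' * g₀ * s' * s⁻¹) := by rw [h3]
      _ = s' * s⁻¹ := by group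
  have h4 : k'⁻¹ * k ∈ (locF q g₀ F).fixingSubgroup := by
    rw [mem_fixingSubgroup_locF_iff, h2]
    exact mul_mem hs' (inv_mem hs)
  rw [IntermediateField.mem_fixingSubgroup_iff] at h4
  have h5 : (k'⁻¹ * k) • z = z := Units.ext (h4 _ hz)
  calc k' • z = k' • (k'⁻¹ * k) • z := by rw [h5]
    _ = k • z := by rw [smul_smul]; congr 1; group

theorem PL3_fun_of_not (F : IntermediateField ℚ Qbar) (q : Nat.Primes) (g₀ : GQ) (z : (Om q)ˣ)
    (g : GQ) (H : ¬ SamePlace q F g₀ g) : PL3_fun F q g₀ z g = 1 := by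
  classical
  unfold PL3_fun
  rw [dif_neg H]

theorem PL3_mem_Jq (F : IntermediateField ℚ Qbar) [FiniteDimensional ℚ F] (q : Nat.Primes)
    (g₀ : GQ) (z : (Om q)ˣ) (hz : (z : Om q) ∈ locF q g₀ F) :
    (∀ (h : Gq q) (g : GQ), PL3_fun F q g₀ z (rq q h * g) = h • PL3_fun F q g₀ z g) ∧
    (∀ g, ∀ s ∈ F.fixingSubgroup, PL3_fun F q g₀ z (g * s) = PL3_fun F q g₀ z g) := by
  refine ⟨fun h g => ?_, fun g s hs => ?_⟩
  · by_cases H : SamePlace q F g₀ g
    · obtain ⟨k, s, hs, rfl⟩ := H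
      have h1 : rq q h * (rq q k * g₀ * s) = rq q (h * k) * g₀ * s := by rw [map_mul]; group
      rw [h1, PL3_fun_apply F q g₀ z hz _ s hs, PL3_fun_apply F q g₀ z hz _ s hs, mul_smul]
    · have H' : ¬ SamePlace q F g₀ (rq q h * g) := by
        intro H'
        apply H
        refine H'.trans ⟨h⁻¹, 1, one_mem _, ?_⟩
        rw [map_inv]; group
      rw [PL3_fun_of_not _ _ _ _ _ H, PL3_fun_of_not _ _ _ _ _ H', smul_one]
  · by_cases H : SamePlace q F g₀ g
    · obtain ⟨k, t, ht, rfl⟩ := H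
      have h1 : rq q k * g₀ * t * s = rq q k * g₀ * (t * s) := by group
      rw [h1, PL3_fun_apply F q g₀ z hz _ _ (mul_mem ht hs), PL3_fun_apply F q g₀ z hz _ t ht]
    · have H' : ¬ SamePlace q F g₀ (g * s) := by
        intro H'
        apply H
        refine H'.trans ⟨1, s⁻¹, inv_mem hs, ?_⟩
        rw [map_one]; group
      rw [PL3_fun_of_not _ _ _ _ _ H, PL3_fun_of_not _ _ _ _ _ H']

theorem exists_single (F : IntermediateField ℚ Qbar) [FiniteDimensional ℚ F] (q : Nat.Primes)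
    (g₀ : GQ) (z : (Om q)ˣ) (hz : (z : Om q) ∈ locF q g₀ F) :
    ∃ x ∈ JF F, cmp x q g₀ = z ∧ (∀ g, ¬ SamePlace q F g₀ g → cmp x q g = 1) ∧
      ∀ q' ≠ q, ∀ g, cmp x q' g = 1 := by
  classical
  obtain ⟨L, hL, hn, hFL⟩ := exists_stableF_ge F
  obtain ⟨he, hinv⟩ := PL3_mem_Jq F q g₀ z hz
  have hUL : L.fixingSubgroup ≤ F.fixingSubgroup := IntermediateField.fixingSubgroup_antitone hFL
  have hlev : L.fixingSubgroup ∈ levAll.mem := ⟨L, hL, hn, trivial, rfl⟩
  let f : Jq q := ⟨PL3_fun F q g₀ z, he, L.fixingSubgroup, hlev, fun g s hs => hinv g s (hUL hs)⟩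
  have hfix : ∀ s ∈ F.fixingSubgroup, s • f = f := fun s hs =>
    Subtype.ext (funext fun g => hinv g s hs)
  have hfix' : ∀ s ∈ F.fixingSubgroup, ∀ q', s • (Pi.mulSingle q f : ∀ q : Nat.Primes, Jq q) q' =
      (Pi.mulSingle q f : ∀ q : Nat.Primes, Jq q) q' := by
    intro s hs q'
    by_cases hq : q' = q
    · subst hq
      rw [Pi.mulSingle_eq_same]
      exact hfix s hs
    · rw [Pi.mulSingle_eq_of_ne hq, smul_one]
  let x : JJ := ⟨Pi.mulSingle q f, ⟨L.fixingSubgroup, hlev, fun s hs q' => hfix' s (hUL hs) q'⟩, by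
    refine (Set.finite_singleton q).subset ?_
    intro q' hq'
    by_contra hne
    apply hq'
    rw [Pi.mulSingle_eq_of_ne hne]
    exact one_mem _⟩
  have hx : ∀ g, cmp x q g = PL3_fun F q g₀ z g := by
    intro g
    show (((Pi.mulSingle q f : ∀ q : Nat.Primes, Jq q) q : Jq q) : GQ → (Om q)ˣ) g = _
    rw [Pi.mulSingle_eq_same]
  refine ⟨x, fun s hs => Subtype.ext (funext fun q' => hfix' s hs q'), ?_, ?_, ?_⟩
  · rw [hx]
    have := PL3_fun_apply F q g₀ z hz 1 1 (one_mem _)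
    simpa using this
  · intro g H
    rw [hx, PL3_fun_of_not _ _ _ _ _ H]
  · intro q' hq' g
    show (((Pi.mulSingle q f : ∀ q : Nat.Primes, Jq q) q' : Jq q') : GQ → (Om q')ˣ) g = 1
    rw [Pi.mulSingle_eq_of_ne hq']
    rfl

end

end Fermat.Agent.S55Lib
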