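import Fermat.Agent.S55.G.G1Defs

/-! # S55 G1a (D): Galois descent for ideles, elementary part -/

set_option autoImplicit false
set_option linter.unusedSectionVars false
set_option linter.unusedVariables false

namespace Fermat.Agent.S55Lib

noncomputable section

theorem mem_JF_iff {F : IntermediateField ℚ Qbar} {x : JJ} :
    x ∈ JF F ↔ ∀ s ∈ F.fixingSubgroup, ∀ q g, cmp x q (g * s) = cmp x q g := by
  constructor
  · intro h s hs q g
    have := h s hs
    rw [← cmp_smul, this]
  · intro h s hs
    apply JJ.ext
    intro q g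
    rw [cmp_smul]
    exact h s hs q g

theorem diag_injective : Function.Injective diag := by
  intro a b hab
  obtain ⟨q⟩ : Nonempty Nat.Primes := ⟨⟨2, Nat.prime_two⟩⟩
  have h1 : ((cmp (diag a) q 1 : (Om q)ˣ) : Om q) = ((cmp (diag b) q 1 : (Om q)ˣ) : Om q) := by
    rw [hab]
  rw [diag_comp, diag_comp] at h1
  exact Units.ext ((iq q).toRingHom.injective h1)

theorem diag_mem_JF_iff (F : IntermediateField ℚ Qbar) [FiniteDimensional ℚ F] (a : Qbarˣ) :
    diag a ∈ JF F ↔ a ∈ FX F := by
  have hF : IntermediateField.fixedField F.fixingSubgroup = F :=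
    InfiniteGalois.fixedField_fixingSubgroup F
  constructor
  · intro h
    show (a : Qbar) ∈ F
    rw [← hF, IntermediateField.mem_fixedField_iff]
    intro s hs
    have h1 := h s hs
    rw [smul_diag] at h1
    have h2 := diag_injective h1
    exact congrArg Units.val h2
  · intro h s hs
    rw [smul_diag]
    congr 1
    apply Units.ext
    rw [IntermediateField.mem_fixingSubgroup_iff] at hs
    exact hs _ h

theorem exists_level_JJ (x : JJ) : ∃ F : IntermediateField ℚ Qbar,
    FiniteDimensional ℚ F ∧ StableF F ∧ x ∈ JF F := by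
  obtain ⟨⟨U, ⟨F, hF, hn, -, rfl⟩, hx⟩, -⟩ := x.2
  refine ⟨F, hF, hn, fun s hs => ?_⟩
  exact Subtype.ext (funext fun q => hx s hs q)

end

end Fermat.Agent.S55Lib
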