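import Fermat.Agent.S55.G.G1Defs

/-! # S55 G1a (H90a): Hilbert 90 for `G_ℚ`-cocycles of finite level (Poincare series) -/

set_option autoImplicit false
set_option linter.unusedSectionVars false
set_option linter.unusedVariables false
set_option linter.style.haveILetI false

namespace Fermat.Agent.S55Lib

noncomputable section

theorem hilbert90_GQ (F L : IntermediateField ℚ Qbar) [FiniteDimensional ℚ L] (hFL : F ≤ L)
    (a : GQ → Qbarˣ)
    (hcoc : ∀ s ∈ F.fixingSubgroup, ∀ t ∈ F.fixingSubgroup, a (s * t) = a s * s • a t)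
    (htriv : ∀ t ∈ L.fixingSubgroup, a t = 1) :
    ∃ b : Qbarˣ, ∀ s ∈ F.fixingSubgroup, a s = b / s • b := by
  classical
  have hUL : L.fixingSubgroup ≤ F.fixingSubgroup := IntermediateField.fixingSubgroup_antitone hFL
  haveI := finiteIndex_fix L
  set U : Subgroup GQ := F.fixingSubgroup with hU
  set V : Subgroup U := L.fixingSubgroup.subgroupOf U with hV
  haveI : V.FiniteIndex := inferInstance
  haveI : Finite (U ⧸ V) := Subgroup.finite_quotient_of_finiteIndex
  haveI : Fintype (U ⧸ V) := Fintype.ofFinite _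
  -- the summands
  let Φ : Qbar → U → Qbar := fun θ u => ((a (u : GQ) : Qbarˣ) : Qbar) * (u : GQ) θ
  have hΦV : ∀ θ ∈ L, ∀ (u : U) (v : V), Φ θ (u * (v : U)) = Φ θ u := by
    intro θ hθ u v
    have hv : ((v : U) : GQ) ∈ L.fixingSubgroup := Subgroup.mem_subgroupOf.mp v.2
    have h1 : a ((u : GQ) * ((v : U) : GQ)) = a (u : GQ) := by
      rw [hcoc _ u.2 _ (v : U).2, htriv _ hv, smul_one, mul_one]
    have h2 : ((v : U) : GQ) θ = θ := (IntermediateField.mem_fixingSubgroup_iff _ _).mp hv θ hθ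
    show ((a ((u : GQ) * ((v : U) : GQ)) : Qbarˣ) : Qbar) * (u : GQ) (((v : U) : GQ) θ) = _
    rw [h1, h2]
  let Ψ : Qbar → (U ⧸ V) → Qbar := fun θ c => Φ θ (Quotient.out c)
  have hΨ : ∀ θ ∈ L, ∀ u : U, Ψ θ (QuotientGroup.mk u) = Φ θ u := by
    intro θ hθ u
    obtain ⟨v, hv⟩ := QuotientGroup.mk_out_eq_mul V u
    show Φ θ (Quotient.out (QuotientGroup.mk u : U ⧸ V)) = Φ θ u
    rw [hv, hΦV θ hθ]
  have hsΦ : ∀ θ, ∀ s u : U, (s : GQ) (Φ θ u) * ((a (s : GQ) : Qbarˣ) : Qbar) = Φ θ (s * u) := by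
    intro θ s u
    have h1 : a ((s : GQ) * (u : GQ)) = a (s : GQ) * (s : GQ) • a (u : GQ) := hcoc _ s.2 _ u.2
    show (s : GQ) (((a (u : GQ) : Qbarˣ) : Qbar) * (u : GQ) θ) * ((a (s : GQ) : Qbarˣ) : Qbar) =
      ((a ((s : GQ) * (u : GQ)) : Qbarˣ) : Qbar) * (s : GQ) ((u : GQ) θ)
    rw [h1, map_mul, Units.val_mul]
    have h2 : (((s : GQ) • a (u : GQ) : Qbarˣ) : Qbar) = (s : GQ) ((a (u : GQ) : Qbarˣ) : Qbar) := rfl
    rw [h2]
    ring
  have hsum : ∀ θ ∈ L, ∀ s : U, (s : GQ) (∑ c, Ψ θ c) * ((a (s : GQ) : Qbarˣ) : Qbar) =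
      ∑ c, Ψ θ c := by
    intro θ hθ s
    rw [map_sum, Finset.sum_mul]
    have h1 : ∀ c : U ⧸ V, (s : GQ) (Ψ θ c) * ((a (s : GQ) : Qbarˣ) : Qbar) = Ψ θ (s • c) := by
      intro c
      show (s : GQ) (Φ θ (Quotient.out c)) * _ = _
      rw [hsΦ, ← hΨ θ hθ]
      congr 1
      conv_rhs => rw [← Quotient.out_eq' c]
      rfl
    rw [Finset.sum_congr rfl (fun c _ => h1 c)]
    exact Equiv.sum_comp (MulAction.toPerm s) (Ψ θ)
  -- nonvanishing
  have hne : ∃ θ ∈ L, ∑ c, Ψ θ c ≠ 0 := by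
    by_contra hcon
    push Not at hcon
    let χ : (U ⧸ V) → (L →* Qbar) := fun c =>
      ((((Quotient.out c : U) : GQ) : Qbar →ₐ[ℚ] Qbar).comp L.val : L →* Qbar)
    have hχ : ∀ c (x : L), χ c x = ((Quotient.out c : U) : GQ) (x : Qbar) := fun c x => rfl
    have hinj : Function.Injective χ := by
      intro c c' hcc
      rw [← Quotient.out_eq' c, ← Quotient.out_eq' c']
      apply QuotientGroup.eq.mpr
      show (((Quotient.out c : U)⁻¹ * (Quotient.out c' : U) : U) : GQ) ∈ L.fixingSubgroup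
      rw [IntermediateField.mem_fixingSubgroup_iff]
      intro x hx
      have h1 : ((Quotient.out c : U) : GQ) x = ((Quotient.out c' : U) : GQ) x := by
        have := DFunLike.congr_fun hcc ⟨x, hx⟩
        rwa [hχ, hχ] at this
      show ((Quotient.out c : U) : GQ)⁻¹ (((Quotient.out c' : U) : GQ) x) = x
      rw [← h1]
      exact ((Quotient.out c : U) : GQ).symm_apply_apply x
    have hli := (linearIndependent_monoidHom L Qbar).comp χ hinj
    rw [Fintype.linearIndependent_iff] at hli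
    have h0 := hli (fun c => ((a ((Quotient.out c : U) : GQ) : Qbarˣ) : Qbar)) (by
      ext x
      have := hcon (x : Qbar) x.2
      simpa [Ψ, Φ, hχ] using this) (QuotientGroup.mk 1)
    exact (Units.ne_zero _) h0
  obtain ⟨θ, hθ, hb⟩ := hne
  refine ⟨Units.mk0 _ hb, fun s hs => ?_⟩
  have h1 := hsum θ hθ ⟨s, hs⟩
  rw [eq_div_iff_mul_eq']
  apply Units.ext
  rw [Units.val_mul, mul_comm]
  exact h1

end

end Fermat.Agent.S55Lib
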