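import Fermat.Agent.S55.G.Descent
import Fermat.Agent.S55.G.Hilbert90

/-! # S55 G1a (H90b): `C(F) = J(F)/F^×` -/

set_option autoImplicit false
set_option linter.unusedSectionVars false
set_option linter.unusedVariables false
set_option linter.style.haveILetI false

namespace Fermat.Agent.S55Lib

noncomputable section

/-- Hilbert 90: `C(F) = J(F)/F^×`. -/
theorem exists_JF_of_mem_CF (F : IntermediateField ℚ Qbar) [FiniteDimensional ℚ F]
    (c : CC) (hc : c ∈ CF F) : ∃ x ∈ JF F, CC.mk x = c := by
  classical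
  obtain ⟨y, rfl⟩ := QuotientGroup.mk_surjective c
  obtain ⟨L₀, hL₀, -, hy⟩ := exists_level_JJ y
  haveI : FiniteDimensional ℚ (L₀ ⊔ F : IntermediateField ℚ Qbar) :=
    IntermediateField.finiteDimensional_sup L₀ F
  have hex : ∀ s ∈ F.fixingSubgroup, ∃ a : Qbarˣ, s • y = y * diag a := by
    intro s hs
    have h1 : CC.mk (s • y) = CC.mk y := hc s hs
    have h2 : y⁻¹ * s • y ∈ diag.range := QuotientGroup.eq.mp h1.symm
    obtain ⟨a, ha⟩ := h2
    exact ⟨a, by rw [ha]; group⟩
  let a : GQ → Qbarˣ := fun s => if hs : s ∈ F.fixingSubgroup then Classical.choose (hex s hs) else 1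
  have ha : ∀ s ∈ F.fixingSubgroup, s • y = y * diag (a s) := by
    intro s hs
    have : a s = Classical.choose (hex s hs) := dif_pos hs
    rw [this]
    exact Classical.choose_spec (hex s hs)
  have hcoc : ∀ s ∈ F.fixingSubgroup, ∀ t ∈ F.fixingSubgroup, a (s * t) = a s * s • a t := by
    intro s hs t ht
    apply diag_injective
    have h1 : (s * t) • y = y * diag (a (s * t)) := ha _ (mul_mem hs ht)
    have h2 : (s * t) • y = y * (diag (a s) * diag (s • a t)) := by
      rw [mul_smul, ha t ht, smul_mul', ha s hs, smul_diag, mul_assoc]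
    rw [map_mul]
    exact mul_left_cancel (h1.symm.trans h2)
  have htriv : ∀ t ∈ (L₀ ⊔ F : IntermediateField ℚ Qbar).fixingSubgroup, a t = 1 := by
    intro t ht
    have h1 : t ∈ L₀.fixingSubgroup := IntermediateField.fixingSubgroup_antitone le_sup_left ht
    have h2 : t ∈ F.fixingSubgroup := IntermediateField.fixingSubgroup_antitone le_sup_right ht
    apply diag_injective
    have h3 := ha t h2
    rw [hy t h1] at h3
    rw [map_one]
    exact (mul_eq_left.mp h3.symm)
  obtain ⟨b, hb⟩ := hilbert90_GQ F (L₀ ⊔ F) le_sup_right a hcoc htriv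
  refine ⟨y * diag b, fun s hs => ?_, ?_⟩
  · rw [smul_mul', ha s hs, smul_diag, mul_assoc, ← map_mul, hb s hs, div_mul_cancel]
  · apply QuotientGroup.eq.mpr
    refine ⟨b⁻¹, ?_⟩
    rw [map_inv]
    group

end

end Fermat.Agent.S55Lib
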