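import Fermat.Agent.S55.LevComap
import Fermat.Prelude.Def_GroupCohomology_ContinuousUnramified

/-!
# S55, global chapters: ideles as smooth coinduced functions (definitions)
-/

set_option autoImplicit false
set_option linter.unusedSectionVars false
set_option linter.unusedVariables false
set_option linter.style.haveILetI false

namespace Fermat.Agent.S55Lib

noncomputable section

open groupCohomology

/-- `ℚ̄` -/
abbrev Qbar : Type := AlgebraicClosure ℚ
/-- `G_ℚ` -/
abbrev GQ : Type := Qbar ≃ₐ[ℚ] Qbar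

instance isGaloisQbar : IsGalois ℚ Qbar := by
  haveI : Algebra.IsAlgebraic ℚ Qbar := AlgebraicClosure.isAlgebraic ℚ
  haveI : IsAlgClosure ℚ Qbar := ⟨inferInstance, inferInstance⟩
  haveI : Normal ℚ Qbar := IsAlgClosure.normal ℚ Qbar
  exact ⟨⟩

instance factPrimes (q : Nat.Primes) : Fact (q : ℕ).Prime := ⟨q.2⟩

/-- `Ω_q`, an algebraic closure of `ℚ_q` -/
abbrev Om (q : Nat.Primes) : Type := PadicAlgCl (q : ℕ)
/-- the local Galois group at `q` -/
abbrev Gq (q : Nat.Primes) : Type := Om q ≃ₐ[ℚ_[(q : ℕ)]] Om q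
/-- `G_q → G_ℚ` -/
abbrev rq (q : Nat.Primes) : Gq q →* GQ := localGaloisToGlobal (q : ℕ)
/-- `ℚ̄ → Ω_q` -/
abbrev iq (q : Nat.Primes) : Qbar →ₐ[ℚ] Om q := padicEmbedding (q : ℕ)

lemma iq_rq (q : Nat.Primes) (h : Gq q) (x : Qbar) : iq q (rq q h x) = h (iq q x) :=
  padicEmbedding_localGaloisToGlobal (q : ℕ) h x

/-! ### level systems -/

/-- `F` is stable under `G_ℚ` (i.e. normal over `ℚ`) -/
def StableF (F : IntermediateField ℚ Qbar) : Prop := ∀ (σ : GQ) (x : Qbar), x ∈ F → σ x ∈ F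

lemma finiteIndex_fix (F : IntermediateField ℚ Qbar) [FiniteDimensional ℚ F] :
    F.fixingSubgroup.FiniteIndex := by
  have : Finite (GQ ⧸ F.fixingSubgroup) :=
    Subgroup.quotient_finite_of_isOpen _ F.fixingSubgroup_isOpen
  exact Subgroup.finiteIndex_of_finite_quotient

lemma normal_fix (F : IntermediateField ℚ Qbar) (hF : StableF F) : F.fixingSubgroup.Normal := by
  constructor
  intro s hs g
  rw [IntermediateField.mem_fixingSubgroup_iff] at hs ⊢
  intro x hx
  have h1 := hs (g⁻¹ x) (hF g⁻¹ x hx)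
  show g (s (g⁻¹ x)) = x
  have h2 : s (g⁻¹ x) = g⁻¹ x := h1
  rw [h2]
  exact g.apply_symm_apply x

lemma StableF.sup {F F' : IntermediateField ℚ Qbar} (h : StableF F) (h' : StableF F') :
    StableF (F ⊔ F') := by
  intro σ x hx
  have h1 : (F ⊔ F').map (σ : Qbar →ₐ[ℚ] Qbar) ≤ F ⊔ F' := by
    rw [IntermediateField.map_sup]
    apply sup_le_sup
    · rintro _ ⟨y, hy, rfl⟩
      exact h σ y hy
    · rintro _ ⟨y, hy, rfl⟩
      exact h' σ y hy
  exact h1 ⟨x, hx, rfl⟩

lemma stableF_bot : StableF ⊥ := by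
  intro σ x hx
  obtain ⟨r, rfl⟩ := IntermediateField.mem_bot.1 hx
  rw [σ.commutes r]
  exact IntermediateField.algebraMap_mem _ r

/-- a family of number fields closed under compositum gives a level system -/
def levOf (P : IntermediateField ℚ Qbar → Prop) (hbot : P ⊥)
    (hsup : ∀ F F', P F → P F' → P (F ⊔ F')) : Lev GQ where
  mem := {U | ∃ F : IntermediateField ℚ Qbar, FiniteDimensional ℚ F ∧ StableF F ∧ P F ∧
    U = F.fixingSubgroup}
  normal := by
    rintro U ⟨F, hF, hn, -, rfl⟩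
    exact normal_fix F hn
  finiteIndex := by
    rintro U ⟨F, hF, hn, -, rfl⟩
    exact finiteIndex_fix F
  nonempty := ⟨_, ⊥, inferInstance, stableF_bot, hbot, rfl⟩
  directed := by
    rintro _ ⟨F, hF, hn, hP, rfl⟩ _ ⟨F', hF', hn', hP', rfl⟩
    refine ⟨_, ⟨F ⊔ F', IntermediateField.finiteDimensional_sup F F', hn.sup hn',
      hsup F F' hP hP', rfl⟩, ?_, ?_⟩
    · exact IntermediateField.fixingSubgroup_antitone le_sup_left
    · exact IntermediateField.fixingSubgroup_antitone le_sup_right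

/-- all number fields -/
def levAll : Lev GQ := levOf (fun _ => True) trivial (fun _ _ _ _ => trivial)

/-- number fields unramified outside `S` -/
def levS (S : Finset Nat.Primes) : Lev GQ :=
  levOf (fun F => F.IsUnramifiedOutside S) (IntermediateField.isUnramifiedOutside_bot S)
    (fun _ _ h h' => h.sup h')

/-- the levels of the local Galois group coming from number fields -/
def levLoc (q : Nat.Primes) : Lev (Gq q) := levAll.comap (rq q)

/-! ### the local factor `J_q` -/

/-- `J_q`: smooth coinduction of `Ω_q^×` from `G_q` to `G_ℚ`. -/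
def Jq (q : Nat.Primes) : Subgroup (GQ → (Om q)ˣ) where
  carrier := {f | (∀ (h : Gq q) (g : GQ), f (rq q h * g) = h • f g) ∧ levAll.Const₁ f}
  one_mem' := ⟨fun h g => by simp, Lev.const₁_const (1 : (Om q)ˣ)⟩
  mul_mem' := by
    rintro a b ⟨ha, U, hU, hca⟩ ⟨hb, V, hV, hcb⟩
    refine ⟨fun h g => by simp only [Pi.mul_apply, ha h g, hb h g, smul_mul'], ?_⟩
    obtain ⟨W, hW, hWU, hWV⟩ := levAll.directed U hU V hV
    exact ⟨W, hW, fun g s hs => by
      simp only [Pi.mul_apply, hca g s (hWU hs), hcb g s (hWV hs)]⟩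
  inv_mem' := by
    rintro a ⟨ha, hca⟩
    exact ⟨fun h g => by simp only [Pi.inv_apply, ha h g, smul_inv'], hca.comp (fun x => x⁻¹)⟩

instance instCommGroupJq (q : Nat.Primes) : CommGroup (Jq q) := Subgroup.toCommGroup (Jq q)

instance instActJq (q : Nat.Primes) : MulDistribMulAction GQ (Jq q) where
  smul γ f := ⟨fun g => (f : GQ → (Om q)ˣ) (g * γ), fun h g => by
      have := f.2.1 h (g * γ)
      simpa [mul_assoc] using this, by
      obtain ⟨U, hU, hc⟩ := f.2.2
      refine ⟨U, hU, fun g s hs => ?_⟩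
      have hn : γ⁻¹ * s * γ ∈ U := by
        have := (levAll.normal U hU).conj_mem s hs γ⁻¹
        simpa using this
      have := hc (g * γ) _ hn
      show (f : GQ → (Om q)ˣ) (g * s * γ) = (f : GQ → (Om q)ˣ) (g * γ)
      rw [← this]
      congr 1
      group⟩
  one_smul f := Subtype.ext (funext fun g => by
    show (f : GQ → (Om q)ˣ) (g * 1) = (f : GQ → (Om q)ˣ) g
    rw [mul_one])
  mul_smul γ δ f := Subtype.ext (funext fun g => by
    show (f : GQ → (Om q)ˣ) (g * (γ * δ)) = (f : GQ → (Om q)ˣ) (g * γ * δ)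
    rw [mul_assoc])
  smul_one γ := rfl
  smul_mul γ f f' := rfl

instance instSMulJq (q : Nat.Primes) : SMul GQ (Jq q) := (instActJq q).toMulAction.toSMul

@[simp] lemma Jq.smul_apply (q : Nat.Primes) (γ : GQ) (f : Jq q) (g : GQ) :
    ((γ • f : Jq q) : GQ → (Om q)ˣ) g = (f : GQ → (Om q)ˣ) (g * γ) := rfl

/-- `U_q ≤ J_q`: unit-valued functions. -/
def Uq (q : Nat.Primes) : Subgroup (Jq q) where
  carrier := {f | ∀ g, ‖(((f : GQ → (Om q)ˣ) g : (Om q)ˣ) : Om q)‖ = 1}
  one_mem' := fun g => by simp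
  mul_mem' := fun {a b} ha hb g => by
    have h1 := ha g
    have h2 := hb g
    simp only [Subgroup.coe_mul, Pi.mul_apply, Units.val_mul, norm_mul, h1, h2, mul_one]
  inv_mem' := fun {a} ha g => by
    have h1 := ha g
    simp only [Subgroup.coe_inv, Pi.inv_apply, Units.val_inv_eq_inv_val, norm_inv, h1, inv_one]

/-! ### ideles -/

/-- the (finite) ideles of `ℚ̄`: restricted product of the `J_q`, with a common level. -/
def JJ : Subgroup (∀ q : Nat.Primes, Jq q) where
  carrier := {x | (∃ U ∈ levAll.mem, ∀ s ∈ U, ∀ q, s • x q = x q) ∧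
    {q | x q ∉ Uq q}.Finite}
  one_mem' := by
    refine ⟨?_, ?_⟩
    · obtain ⟨U, hU⟩ := levAll.nonempty
      exact ⟨U, hU, fun s _ q => smul_one s⟩
    · have : {q : Nat.Primes | (1 : ∀ q : Nat.Primes, Jq q) q ∉ Uq q} = ∅ := by
        ext q; simp [one_mem]
      rw [this]; exact Set.finite_empty
  mul_mem' := by
    rintro a b ⟨⟨U, hU, ha⟩, hfa⟩ ⟨⟨V, hV, hb⟩, hfb⟩
    refine ⟨?_, ?_⟩
    · obtain ⟨W, hW, hWU, hWV⟩ := levAll.directed U hU V hV
      exact ⟨W, hW, fun s hs q => by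
        simp only [Pi.mul_apply, smul_mul', ha s (hWU hs) q, hb s (hWV hs) q]⟩
    · refine (hfa.union hfb).subset ?_
      intro q hq
      by_contra hcon
      simp only [Set.mem_union, Set.mem_ofPred_eq, not_or, not_not] at hcon
      exact hq (mul_mem hcon.1 hcon.2)
  inv_mem' := by
    rintro a ⟨⟨U, hU, ha⟩, hfa⟩
    refine ⟨⟨U, hU, fun s hs q => by simp only [Pi.inv_apply, smul_inv', ha s hs q]⟩, ?_⟩
    refine hfa.subset ?_
    intro q hq hcon
    exact hq (inv_mem hcon)

instance instCommGroupJJ : CommGroup JJ := Subgroup.toCommGroup JJ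

lemma smul_mem_Uq (q : Nat.Primes) (γ : GQ) {f : Jq q} (hf : f ∈ Uq q) : γ • f ∈ Uq q :=
  fun g => hf (g * γ)

instance instActJJ : MulDistribMulAction GQ JJ where
  smul γ x := ⟨fun q => γ • (x : ∀ q : Nat.Primes, Jq q) q, by
    obtain ⟨⟨U, hU, hx⟩, hfx⟩ := x.2
    refine ⟨⟨U, hU, fun s hs q => ?_⟩, ?_⟩
    · have hn : γ⁻¹ * s * γ ∈ U := by
        have := (levAll.normal U hU).conj_mem s hs γ⁻¹
        simpa using this
      have h1 := hx _ hn q
      calc s • γ • (x : ∀ q : Nat.Primes, Jq q) q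
          = γ • (γ⁻¹ * s * γ) • (x : ∀ q : Nat.Primes, Jq q) q := by
            simp only [smul_smul]; group
        _ = _ := by rw [h1]
    · refine hfx.subset ?_
      intro q hq hcon
      exact hq (smul_mem_Uq q γ hcon)⟩
  one_smul x := Subtype.ext (funext fun q => one_smul GQ _)
  mul_smul γ δ x := Subtype.ext (funext fun q => mul_smul γ δ _)
  smul_one γ := Subtype.ext (funext fun q => smul_one γ)
  smul_mul γ x y := Subtype.ext (funext fun q => smul_mul' γ _ _)

instance instSMulJJ : SMul GQ JJ := instActJJ.toMulAction.toSMul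

/-- the component of an idele at the "place" `(q, g)` -/
def cmp (x : JJ) (q : Nat.Primes) (g : GQ) : (Om q)ˣ :=
  (((x : ∀ q : Nat.Primes, Jq q) q : Jq q) : GQ → (Om q)ˣ) g

@[simp] lemma cmp_smul (γ : GQ) (x : JJ) (q : Nat.Primes) (g : GQ) :
    cmp (γ • x) q g = cmp x q (g * γ) := rfl

@[simp] lemma cmp_mul (x y : JJ) (q : Nat.Primes) (g : GQ) :
    cmp (x * y) q g = cmp x q g * cmp y q g := rfl

@[simp] lemma cmp_one (q : Nat.Primes) (g : GQ) : cmp (1 : JJ) q g = 1 := rfl

@[simp] lemma cmp_inv (x : JJ) (q : Nat.Primes) (g : GQ) :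
    cmp (x⁻¹) q g = (cmp x q g)⁻¹ := rfl

lemma cmp_rq (x : JJ) (q : Nat.Primes) (h : Gq q) (g : GQ) :
    cmp x q (rq q h * g) = h • cmp x q g :=
  ((x : ∀ q : Nat.Primes, Jq q) q).2.1 h g

@[ext] lemma JJ.ext {x y : JJ} (h : ∀ q g, cmp x q g = cmp y q g) : x = y :=
  Subtype.ext (funext fun q => Subtype.ext (funext fun g => h q g))

/-- every algebraic number lies in a finite normal number field -/
lemma exists_stableF (a : Qbar) : ∃ F : IntermediateField ℚ Qbar,
    FiniteDimensional ℚ F ∧ StableF F ∧ a ∈ F := by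
  haveI : Algebra.IsAlgebraic ℚ Qbar := AlgebraicClosure.isAlgebraic ℚ
  have hfd : FiniteDimensional ℚ (IntermediateField.adjoin ℚ {a}) :=
    IntermediateField.adjoin.finiteDimensional (Algebra.IsIntegral.isIntegral a)
  refine ⟨IntermediateField.normalClosure ℚ (IntermediateField.adjoin ℚ {a}) Qbar,
    normalClosure.is_finiteDimensional _ _ _, ?_, ?_⟩
  · intro σ x hx
    haveI : Normal ℚ (IntermediateField.normalClosure ℚ (IntermediateField.adjoin ℚ {a}) Qbar) :=
      normalClosure.normal _ _ _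
    have := (IntermediateField.normal_iff_forall_map_le'.mp this) σ
    exact this ⟨x, hx, rfl⟩
  · exact IntermediateField.le_normalClosure _ (IntermediateField.mem_adjoin_simple_self ℚ a)

lemma norm_gq (q : Nat.Primes) (h : Gq q) (y : Om q) : ‖h y‖ = ‖y‖ :=
  congrArg NNReal.toReal (nnnorm_padicAlgCl_algEquiv (q : ℕ) h y)

/-- algebraic integers have norm `≤ 1` at all places -/
lemma norm_iq_le_one_of_isIntegral (q : Nat.Primes) {y : Qbar} (hy : IsIntegral ℤ y) :
    ‖iq q y‖ ≤ 1 := by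
  have h1 : IsIntegral ℤ (iq q y) := hy.map ((iq q).restrictScalars ℤ)
  have h2 : IsIntegral (padicIntegers (q : ℕ)) (iq q y) := h1.tower_top
  obtain ⟨z, hz⟩ := IsIntegrallyClosed.isIntegral_iff.mp h2
  have h3 : iq q y ∈ padicIntegers (q : ℕ) := by rw [← hz]; exact z.2
  exact h3

lemma norm_natCast_Om (q : Nat.Primes) {m : ℕ} (hm : ¬ (q : ℕ) ∣ m) : ‖(m : Om q)‖ = 1 := by
  have h1 : ‖((m : ℚ_[(q : ℕ)]) : Om q)‖ = ‖(m : ℚ_[(q : ℕ)])‖ := PadicAlgCl.norm_extends _ _
  have h2 : ((m : ℚ_[(q : ℕ)]) : Om q) = (m : Om q) := map_natCast _ m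
  rw [← h2, h1, Padic.norm_natCast_eq_one_iff]
  exact (Nat.Prime.coprime_iff_not_dvd q.2).mpr hm

/-- for almost all `q`, all conjugates of `a` have norm `≤ 1` -/
lemma exists_nat_norm_le_one (a : Qbar) : ∃ m : ℕ, m ≠ 0 ∧ ∀ q : Nat.Primes, ¬ (q : ℕ) ∣ m →
    ∀ g : GQ, ‖iq q (g a)‖ ≤ 1 := by
  haveI : Algebra.IsAlgebraic ℚ Qbar := AlgebraicClosure.isAlgebraic ℚ
  have halg : IsAlgebraic ℤ a :=
    (IsFractionRing.isAlgebraic_iff ℤ ℚ Qbar).mpr (Algebra.IsAlgebraic.isAlgebraic a)
  obtain ⟨y, hy0, hy⟩ := halg.exists_integral_multiple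
  refine ⟨y.natAbs, Int.natAbs_ne_zero.mpr hy0, fun q hq g => ?_⟩
  have h1 : IsIntegral ℤ (g (y • a)) := hy.map (g.restrictScalars ℤ)
  have h2 := norm_iq_le_one_of_isIntegral q h1
  have h3 : iq q (g (y • a)) = (y : Om q) * iq q (g a) := by
    rw [zsmul_eq_mul, map_mul, map_mul, map_intCast, map_intCast]
  have h4 : ‖(y : Om q)‖ = 1 := by
    have := norm_natCast_Om q hq
    rcases Int.natAbs_eq y with h | h
    · rw [h]; simpa using this
    · rw [h]; simpa using this
  rw [h3, norm_mul, h4, one_mul] at h2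
  exact h2

/-- a level fixing `a` -/
lemma exists_level_fix (a : Qbarˣ) : ∃ U ∈ levAll.mem, ∀ s ∈ U, s • a = a := by
  obtain ⟨F, hF, hn, ha⟩ := exists_stableF (a : Qbar)
  refine ⟨F.fixingSubgroup, ⟨F, hF, hn, trivial, rfl⟩, fun s hs => ?_⟩
  rw [IntermediateField.mem_fixingSubgroup_iff] at hs
  exact Units.ext (hs _ ha)

/-- the principal idele of `a ∈ ℚ̄^×`, at `q` -/
def diagq (q : Nat.Primes) (a : Qbarˣ) : Jq q :=
  ⟨fun g => Units.map (iq q : Qbar →* Om q) (g • a), by
    refine ⟨fun h g => ?_, ?_⟩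
    · apply Units.ext
      show iq q ((rq q h * g) (a : Qbar)) = h (iq q (g (a : Qbar)))
      rw [← iq_rq]
      rfl
    · obtain ⟨U, hU, hfix⟩ := exists_level_fix a
      exact ⟨U, hU, fun g s hs => by
        show Units.map (iq q : Qbar →* Om q) ((g * s) • a) = Units.map (iq q : Qbar →* Om q) (g • a)
        rw [mul_smul, hfix s hs]⟩⟩

lemma diagq_apply (q : Nat.Primes) (a : Qbarˣ) (g : GQ) :
    ((diagq q a : Jq q) : GQ → (Om q)ˣ) g = Units.map (iq q : Qbar →* Om q) (g • a) := rfl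

lemma smul_diagq (q : Nat.Primes) (γ : GQ) (a : Qbarˣ) : γ • diagq q a = diagq q (γ • a) :=
  Subtype.ext (funext fun g => by
    show Units.map (iq q : Qbar →* Om q) ((g * γ) • a) = Units.map (iq q : Qbar →* Om q) (g • γ • a)
    rw [mul_smul])

lemma finite_diagq_notMem (a : Qbarˣ) : {q : Nat.Primes | diagq q a ∉ Uq q}.Finite := by
  obtain ⟨m, hm0, hm⟩ := exists_nat_norm_le_one (a : Qbar)
  obtain ⟨m', hm0', hm'⟩ := exists_nat_norm_le_one ((a⁻¹ : Qbarˣ) : Qbar)
  have hfin : {q : Nat.Primes | (q : ℕ) ∈ (m * m').primeFactors}.Finite :=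
    (Finset.finite_toSet (m * m').primeFactors).preimage Subtype.val_injective.injOn
  refine hfin.subset ?_
  intro q hq
  by_contra hcon
  apply hq
  have hnd : ¬ (q : ℕ) ∣ m * m' := by
    intro hd
    exact hcon (Nat.mem_primeFactors.mpr ⟨q.2, hd, mul_ne_zero hm0 hm0'⟩)
  have h1 : ¬ (q : ℕ) ∣ m := fun h => hnd (Dvd.dvd.mul_right h _)
  have h2 : ¬ (q : ℕ) ∣ m' := fun h => hnd (Dvd.dvd.mul_left h _)
  intro g
  show ‖iq q (g (a : Qbar))‖ = 1
  have h3 := hm q h1 g
  have h4 := hm' q h2 g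
  rw [Units.val_inv_eq_inv_val, map_inv₀, map_inv₀, norm_inv] at h4
  have h5 : iq q (g (a : Qbar)) ≠ 0 := by simp
  have h6 : 0 < ‖iq q (g (a : Qbar))‖ := norm_pos_iff.mpr h5
  exact le_antisymm h3 ((inv_le_one₀ h6).mp h4)

/-- the diagonal embedding `ℚ̄^× → JJ` -/
def diag : Qbarˣ →* JJ where
  toFun a := ⟨fun q => diagq q a, by
    refine ⟨?_, finite_diagq_notMem a⟩
    obtain ⟨U, hU, hfix⟩ := exists_level_fix a
    exact ⟨U, hU, fun s hs q => by rw [smul_diagq, hfix s hs]⟩⟩
  map_one' := Subtype.ext (funext fun q => Subtype.ext (funext fun g => by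
    show Units.map (iq q : Qbar →* Om q) (g • (1 : Qbarˣ)) = 1
    rw [smul_one, map_one]))
  map_mul' a b := Subtype.ext (funext fun q => Subtype.ext (funext fun g => by
    show Units.map (iq q : Qbar →* Om q) (g • (a * b)) =
      Units.map (iq q : Qbar →* Om q) (g • a) * Units.map (iq q : Qbar →* Om q) (g • b)
    rw [smul_mul', map_mul]))

lemma diag_comp (a : Qbarˣ) (q : Nat.Primes) (g : GQ) :
    ((cmp (diag a) q g : (Om q)ˣ) : Om q) = iq q (g (a : Qbar)) := rfl

lemma smul_diag (γ : GQ) (a : Qbarˣ) : γ • diag a = diag (γ • a) :=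
  Subtype.ext (funext fun q => smul_diagq q γ a)

/-- the idele class group of `ℚ̄` -/
abbrev CC : Type := JJ ⧸ diag.range

instance instCommGroupCC : CommGroup CC := QuotientGroup.Quotient.commGroup diag.range

instance instActCC : MulDistribMulAction GQ CC where
  smul γ c := Quotient.map' (fun x : JJ => γ • x) (by
    intro x y hxy
    rw [QuotientGroup.leftRel_apply] at hxy ⊢
    obtain ⟨a, ha⟩ := hxy
    refine ⟨γ • a, ?_⟩
    rw [← smul_diag, ha, smul_mul', smul_inv']) c
  one_smul c := by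
    induction c using QuotientGroup.induction_on with
    | H x => exact congrArg (QuotientGroup.mk) (one_smul GQ x)
  mul_smul γ δ c := by
    induction c using QuotientGroup.induction_on with
    | H x => exact congrArg (QuotientGroup.mk) (mul_smul γ δ x)
  smul_one γ := congrArg (QuotientGroup.mk) (smul_one γ)
  smul_mul γ c d := by
    induction c using QuotientGroup.induction_on with
    | H x =>
      induction d using QuotientGroup.induction_on with
      | H y => exact congrArg (QuotientGroup.mk) (smul_mul' γ x y)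

instance instSMulCC : SMul GQ CC := instActCC.toMulAction.toSMul

/-- the class of an idele -/
def CC.mk (x : JJ) : CC := QuotientGroup.mk x

@[simp] lemma CC.smul_mk (γ : GQ) (x : JJ) : γ • CC.mk x = CC.mk (γ • x) := rfl

/-! ### finite levels -/

/-- the ideles of the number field `F` -/
def JF (F : IntermediateField ℚ Qbar) : Subgroup JJ where
  carrier := {x | ∀ s ∈ F.fixingSubgroup, s • x = x}
  one_mem' := fun s _ => smul_one s
  mul_mem' := fun {a b} ha hb s hs => by rw [smul_mul', ha s hs, hb s hs]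
  inv_mem' := fun {a} ha s hs => by rw [smul_inv', ha s hs]

/-- the idele classes of the number field `F` (fixed points; `= JF F / F^×` by Hilbert 90) -/
def CF (F : IntermediateField ℚ Qbar) : Subgroup CC where
  carrier := {c | ∀ s ∈ F.fixingSubgroup, s • c = c}
  one_mem' := fun s _ => smul_one s
  mul_mem' := fun {a b} ha hb s hs => by rw [smul_mul', ha s hs, hb s hs]
  inv_mem' := fun {a} ha s hs => by rw [smul_inv', ha s hs]

/-- unit ideles outside `T`, trivial at `T` -/
def UId (T : Finset Nat.Primes) : Subgroup JJ where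
  carrier := {x | (∀ q ∈ T, ∀ g, cmp x q g = 1) ∧
    ∀ q ∉ T, ∀ g, ‖((cmp x q g : (Om q)ˣ) : Om q)‖ = 1}
  one_mem' := ⟨fun _ _ _ => rfl, fun _ _ _ => by simp⟩
  mul_mem' := fun {a b} ha hb => ⟨fun q hq g => by
      rw [cmp_mul, ha.1 q hq g, hb.1 q hq g, one_mul], fun q hq g => by
      rw [cmp_mul, Units.val_mul, norm_mul, ha.2 q hq g, hb.2 q hq g, one_mul]⟩
  inv_mem' := fun {a} ha => ⟨fun q hq g => by
      rw [cmp_inv, ha.1 q hq g, inv_one], fun q hq g => by
      rw [cmp_inv, Units.val_inv_eq_inv_val, norm_inv, ha.2 q hq g, inv_one]⟩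

/-- ideles supported at `T` -/
def JT (T : Finset Nat.Primes) : Subgroup JJ where
  carrier := {x | ∀ q ∉ T, ∀ g, cmp x q g = 1}
  one_mem' := fun _ _ _ => rfl
  mul_mem' := fun {a b} ha hb q hq g => by rw [cmp_mul, ha q hq g, hb q hq g, one_mul]
  inv_mem' := fun {a} ha q hq g => by rw [cmp_inv, ha q hq g, inv_one]

/-- the completion of `F` at the place `(q, g)`, inside `Ω_q`: `ℚ_q · ι_q(g F)` -/
def locF (q : Nat.Primes) (g : GQ) (F : IntermediateField ℚ Qbar) :
    IntermediateField ℚ_[(q : ℕ)] (Om q) :=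
  IntermediateField.adjoin ℚ_[(q : ℕ)] ((fun x : Qbar => iq q (g x)) '' (F : Set Qbar))

/-- the norm `N_{L/F}` on any multiplicative `G_ℚ`-module, for `F ≤ L` number fields:
product over `U_F / U_L` (meaningful on `U_L`-fixed elements). -/
def normLF {A : Type} [CommGroup A] [MulDistribMulAction GQ A]
    (F L : IntermediateField ℚ Qbar) (a : A) : A :=
  ∏ᶠ c : F.fixingSubgroup ⧸ (L.fixingSubgroup.subgroupOf F.fixingSubgroup),
    ((Quotient.out c : F.fixingSubgroup) : GQ) • a

/-- local inertia group -/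
def inertiaq (q : Nat.Primes) : Subgroup (Gq q) where
  carrier := {h | ∀ x : Om q, ‖x‖ ≤ 1 → ‖h x - x‖ < 1}
  one_mem' := fun x _ => by simp
  mul_mem' := by
    intro a b ha hb x hx
    have h1 : ‖b x‖ ≤ 1 := by rw [norm_gq]; exact hx
    have h2 := ha (b x) h1
    have h3 := hb x hx
    have h4 : (a * b) x - x = (a (b x) - b x) + (b x - x) := by
      rw [AlgEquiv.mul_apply]; ring
    rw [h4]
    exact lt_of_le_of_lt (PadicAlgCl.isNonarchimedean _ _ _) (max_lt h2 h3)
  inv_mem' := by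
    intro a ha x hx
    have h1 : ‖a⁻¹ x‖ ≤ 1 := by rw [norm_gq]; exact hx
    have h2 := ha (a⁻¹ x) h1
    have h3 : a (a⁻¹ x) = x := a.apply_symm_apply x
    rw [h3, ← norm_neg, neg_sub] at h2
    exact h2

/-- `L/F` is unramified at all places above `q` -/
def UnramAt (q : Nat.Primes) (F L : IntermediateField ℚ Qbar) : Prop :=
  ∀ (g : GQ) (h : Gq q), h ∈ inertiaq q → g⁻¹ * rq q h * g ∈ F.fixingSubgroup →
    g⁻¹ * rq q h * g ∈ L.fixingSubgroup

end

end Fermat.Agent.S55Lib
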