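import Fermat.Agent.S55.G.Descent

/-! # S55 G1a (CG5): cutting an idele along a finite set of primes -/

set_option autoImplicit false
set_option linter.unusedSectionVars false
set_option linter.unusedVariables false
set_option linter.style.haveILetI false

namespace Fermat.Agent.S55Lib

noncomputable section

theorem exists_cut (x : JJ) (T : Finset Nat.Primes) :
    ∃ y : JJ, (∀ q ∈ T, ∀ g, cmp y q g = cmp x q g) ∧ (∀ q ∉ T, ∀ g, cmp y q g = 1) := by
  classical
  obtain ⟨⟨U, hU, hx⟩, hfin⟩ := x.2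
  let y : JJ := ⟨fun q => if q ∈ T then (x : ∀ q : Nat.Primes, Jq q) q else 1, ⟨U, hU, ?_⟩, ?_⟩
  · refine ⟨y, fun q hq g => ?_, fun q hq g => ?_⟩
    · show (((if q ∈ T then (x : ∀ q : Nat.Primes, Jq q) q else 1 : Jq q)) : GQ → (Om q)ˣ) g = _
      rw [if_pos hq]
      rfl
    · show (((if q ∈ T then (x : ∀ q : Nat.Primes, Jq q) q else 1 : Jq q)) : GQ → (Om q)ˣ) g = _
      rw [if_neg hq]
      rfl
  · intro s hs q
    by_cases hq : q ∈ T
    · simp only [if_pos hq]
      exact hx s hs q
    · simp only [if_neg hq]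
      exact smul_one s
  · refine hfin.subset ?_
    intro q hq hcon
    apply hq
    by_cases hqT : q ∈ T
    · simp only [if_pos hqT]
      exact hcon
    · simp only [if_neg hqT]
      exact one_mem _

/-- cutting preserves the level -/
theorem cut_mem_JF {F : IntermediateField ℚ Qbar} {x y : JJ} (hx : x ∈ JF F)
    {T : Finset Nat.Primes} (h1 : ∀ q ∈ T, ∀ g, cmp y q g = cmp x q g)
    (h2 : ∀ q ∉ T, ∀ g, cmp y q g = 1) : y ∈ JF F := by
  rw [mem_JF_iff] at hx ⊢
  intro s hs q g
  by_cases hq : q ∈ T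
  · rw [h1 q hq, h1 q hq, hx s hs]
  · rw [h2 q hq, h2 q hq]

end

end Fermat.Agent.S55Lib
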