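import Fermat.Agent.S55.G.ClassNumber
import Fermat.Agent.S55.G.Cut

/-! # S55 G1a (CG6): finiteness of the class group, idelic form -/

set_option autoImplicit false
set_option linter.unusedSectionVars false
set_option linter.unusedVariables false
set_option linter.style.haveILetI false

namespace Fermat.Agent.S55Lib

noncomputable section

open NumberField nonZeroDivisors

theorem CG6_coe_mul {F : IntermediateField ℚ Qbar} (a b : 𝓞 F) :
    ((((a * b : 𝓞 F) : 𝓞 F) : F) : Qbar) = (((a : 𝓞 F) : F) : Qbar) * (((b : 𝓞 F) : F) : Qbar) := by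
  simp

theorem CG6_norm_mul {F : IntermediateField ℚ Qbar} (a b : 𝓞 F) (q : Nat.Primes) (g : GQ) :
    ‖iq q (g ((((a * b : 𝓞 F) : 𝓞 F) : F) : Qbar))‖ =
      ‖iq q (g (((a : 𝓞 F) : F) : Qbar))‖ * ‖iq q (g (((b : 𝓞 F) : F) : Qbar))‖ := by
  rw [CG6_coe_mul, map_mul, map_mul, norm_mul]

theorem exists_T_classGroup_trivial (F : IntermediateField ℚ Qbar) [FiniteDimensional ℚ F] :
    ∃ T₀ : Finset Nat.Primes, ∀ T : Finset Nat.Primes, T₀ ⊆ T → ∀ x ∈ JF F,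
      ∃ a ∈ FX F, ∃ y ∈ JF F ⊓ JT T, ∃ u ∈ JF F ⊓ UId T, x = diag a * y * u := by
  classical
  have hsurj := ClassGroup.mk0_surjective (R := 𝓞 F)
  choose J hJ using hsurj
  have hn0 : ∀ c, Ideal.absNorm (J c : Ideal (𝓞 F)) ≠ 0 := by
    intro c
    rw [Ne, Ideal.absNorm_eq_zero_iff]
    exact mem_nonZeroDivisors_iff_ne_zero.mp (J c).2
  obtain ⟨N, hN⟩ : ∃ N : ℕ, N = ∏ c, Ideal.absNorm (J c : Ideal (𝓞 F)) := ⟨_, rfl⟩
  have hN0 : N ≠ 0 := by rw [hN]; exact Finset.prod_ne_zero_iff.mpr (fun c _ => hn0 c)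
  have hfin : {q : Nat.Primes | (q : ℕ) ∈ N.primeFactors}.Finite :=
    (Finset.finite_toSet N.primeFactors).preimage Subtype.val_injective.injOn
  refine ⟨hfin.toFinset, fun T hT x hx => ?_⟩
  obtain ⟨μ, hμ, hx', hint⟩ := exists_integral_scale F x hx
  obtain ⟨x', hx'def⟩ : ∃ x' : JJ, x' = diag μ * x := ⟨_, rfl⟩
  rw [← hx'def] at hx' hint
  have hI := idl_mem_nonZeroDivisors F x' hx' hint
  obtain ⟨c, hc⟩ : ∃ c, c = ClassGroup.mk0 ⟨idl F x', hI⟩ := ⟨_, rfl⟩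
  have hcl : ClassGroup.mk0 ⟨idl F x', hI⟩ = ClassGroup.mk0 (J c) := by rw [hJ, hc]
  obtain ⟨α, β, hα, hβ, hαβ⟩ := ClassGroup.mk0_eq_mk0_iff.mp hcl
  have hαβ' : Ideal.span {α} * idl F x' = Ideal.span {β} * (J c : Ideal (𝓞 F)) := hαβ
  have hnorm : ∀ q ∉ T, ∀ g, ‖iq q (g (((α : 𝓞 F) : F) : Qbar))‖ *
      ‖((cmp x' q g : (Om q)ˣ) : Om q)‖ = ‖iq q (g (((β : 𝓞 F) : F) : Qbar))‖ := by
    intro q hq g
    apply le_antisymm
    · obtain ⟨a, ha, -, hatt⟩ := exists_mem_idl_attained F x' hx' hint {q}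
      have h1 : α * a ∈ Ideal.span {β} * (J c : Ideal (𝓞 F)) := by
        rw [← hαβ']
        exact Ideal.mem_span_singleton_mul.mpr ⟨a, ha, rfl⟩
      obtain ⟨j, -, hj⟩ := Ideal.mem_span_singleton_mul.mp h1
      rw [← hatt q (Finset.mem_singleton_self q) g, ← CG6_norm_mul, ← hj, CG6_norm_mul]
      exact mul_le_of_le_one_right (norm_nonneg _) (norm_iq_integer_le_one j q g)
    · have h1 : β * ((Ideal.absNorm (J c : Ideal (𝓞 F)) : ℕ) : 𝓞 F) ∈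
          Ideal.span {α} * idl F x' := by
        rw [hαβ']
        exact Ideal.mem_span_singleton_mul.mpr ⟨_, Ideal.absNorm_mem _, rfl⟩
      obtain ⟨a', ha', hj⟩ := Ideal.mem_span_singleton_mul.mp h1
      have h2 : ‖iq q (g (((((Ideal.absNorm (J c : Ideal (𝓞 F)) : ℕ) : 𝓞 F) : 𝓞 F) : F) : Qbar))‖
          = 1 := by
        have h3 : iq q (g (((((Ideal.absNorm (J c : Ideal (𝓞 F)) : ℕ) : 𝓞 F) : 𝓞 F) : F) : Qbar)) =
            ((Ideal.absNorm (J c : Ideal (𝓞 F)) : ℕ) : Om q) := by simp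
        rw [h3]
        apply norm_natCast_Om
        intro hd
        apply hq
        apply hT
        rw [hfin.mem_toFinset]
        refine Nat.mem_primeFactors.mpr ⟨q.2, hd.trans ?_, hN0⟩
        rw [hN]
        exact Finset.dvd_prod_of_mem _ (Finset.mem_univ c)
      calc ‖iq q (g (((β : 𝓞 F) : F) : Qbar))‖
          = ‖iq q (g (((β : 𝓞 F) : F) : Qbar))‖ *
            ‖iq q (g (((((Ideal.absNorm (J c : Ideal (𝓞 F)) : ℕ) : 𝓞 F) : 𝓞 F) : F) : Qbar))‖ := by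
              rw [h2, mul_one]
        _ = ‖iq q (g (((α : 𝓞 F) : F) : Qbar))‖ * ‖iq q (g (((a' : 𝓞 F) : F) : Qbar))‖ := by
              rw [← CG6_norm_mul, ← hj, CG6_norm_mul]
        _ ≤ _ := mul_le_mul_of_nonneg_left (ha' q g) (norm_nonneg _)
  have hαF := intUnit_mem α hα
  have hβF := intUnit_mem β hβ
  obtain ⟨w, hw⟩ : ∃ w : JJ, w = x' * diag (intUnit α hα) * (diag (intUnit β hβ))⁻¹ := ⟨_, rfl⟩
  have hwF : w ∈ JF F := by
    rw [hw]
    exact mul_mem (mul_mem hx' ((diag_mem_JF_iff F _).mpr hαF))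
      (inv_mem ((diag_mem_JF_iff F _).mpr hβF))
  have hwn : ∀ q ∉ T, ∀ g, ‖((cmp w q g : (Om q)ˣ) : Om q)‖ = 1 := by
    intro q hq g
    rw [hw, cmp_mul, cmp_mul, cmp_inv, Units.val_mul, Units.val_mul, Units.val_inv_eq_inv_val,
      norm_mul, norm_mul, norm_inv, diag_comp, diag_comp, coe_intUnit, coe_intUnit,
      mul_comm ‖((cmp x' q g : (Om q)ˣ) : Om q)‖, hnorm q hq g]
    refine mul_inv_cancel₀ (norm_ne_zero_iff.mpr ?_)
    rw [← coe_intUnit β hβ]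
    simp
  obtain ⟨y, hy1, hy2⟩ := exists_cut w T
  have hyF : y ∈ JF F := cut_mem_JF hwF hy1 hy2
  refine ⟨intUnit β hβ * (intUnit α hα)⁻¹ * μ⁻¹,
    mul_mem (mul_mem hβF (inv_mem hαF)) (inv_mem hμ), y, Subgroup.mem_inf.mpr ⟨hyF, hy2⟩,
    w * y⁻¹, Subgroup.mem_inf.mpr ⟨mul_mem hwF (inv_mem hyF), ?_, ?_⟩, ?_⟩
  · intro q hq g
    rw [cmp_mul, cmp_inv, hy1 q hq, mul_inv_cancel]
  · intro q hq g
    rw [cmp_mul, cmp_inv, hy2 q hq, inv_one, mul_one]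
    exact hwn q hq g
  · rw [hw, hx'def, map_mul, map_mul, map_inv, map_inv]
    have hcomm : ∀ A B M X Y : JJ, X = B * A⁻¹ * M⁻¹ * Y * (M * X * A * B⁻¹ * Y⁻¹) := by
      intro A B M X Y
      have h1 : B * A⁻¹ * M⁻¹ * Y * (M * X * A * B⁻¹ * Y⁻¹) =
          X * (B * B⁻¹) * (A * A⁻¹) * (M * M⁻¹) * (Y * Y⁻¹) := by
        simp only [mul_assoc, mul_comm, mul_left_comm]
      rw [h1]
      simp
    exact hcomm _ _ _ _ _

end

end Fermat.Agent.S55Lib
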