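import Fermat.Agent.S55.G.G1Defs

/-! # S55 G1a (PL2): `locF` is a finite extension of `ℚ_q` -/

set_option autoImplicit false
set_option linter.unusedSectionVars false
set_option linter.unusedVariables false
set_option linter.style.haveILetI false

namespace Fermat.Agent.S55Lib

noncomputable section

theorem iq_ratCast_smul (q : Nat.Primes) (g : GQ) (r : ℚ) (x : Qbar) :
    iq q (g (r • x)) = algebraMap ℚ_[(q : ℕ)] (Om q) (r : ℚ_[(q : ℕ)]) * iq q (g x) := by
  rw [Algebra.smul_def, map_mul, map_mul]
  congr 1
  rw [AlgEquiv.commutes, AlgHom.commutes, map_ratCast, eq_ratCast]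

instance finiteDimensional_locF (F : IntermediateField ℚ Qbar) [FiniteDimensional ℚ F]
    (q : Nat.Primes) (g : GQ) : FiniteDimensional ℚ_[(q : ℕ)] (locF q g F) := by
  classical
  let b := Module.finBasis ℚ F
  let S : Set (Om q) := Set.range (fun j => iq q (g ((b j : F) : Qbar)))
  haveI : Finite S := Set.finite_range _
  haveI : Algebra.IsAlgebraic ℚ_[(q : ℕ)] (Om q) := AlgebraicClosure.isAlgebraic _
  have hfd : FiniteDimensional ℚ_[(q : ℕ)] (IntermediateField.adjoin ℚ_[(q : ℕ)] S) :=
    IntermediateField.finiteDimensional_adjoin (fun x _ => Algebra.IsIntegral.isIntegral x)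
  have hle : locF q g F ≤ IntermediateField.adjoin ℚ_[(q : ℕ)] S := by
    rw [locF, IntermediateField.adjoin_le_iff]
    rintro _ ⟨x, hx, rfl⟩
    have h1 : (⟨x, hx⟩ : F) = ∑ j, b.repr ⟨x, hx⟩ j • b j := (b.sum_repr _).symm
    have h2 : x = ∑ j, b.repr ⟨x, hx⟩ j • ((b j : F) : Qbar) := by
      have h3 := congrArg (fun y : F => F.val y) h1
      simp only [map_sum, map_smul] at h3
      exact h3
    show iq q (g x) ∈ IntermediateField.adjoin ℚ_[(q : ℕ)] S
    rw [h2, map_sum, map_sum]
    refine sum_mem (fun j _ => ?_)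
    rw [iq_ratCast_smul]
    exact mul_mem (IntermediateField.algebraMap_mem _ _)
      (IntermediateField.subset_adjoin _ _ ⟨j, rfl⟩)
  exact Module.Finite.of_injective (IntermediateField.inclusion hle).toLinearMap
    (IntermediateField.inclusion hle).toRingHom.injective

end

end Fermat.Agent.S55Lib
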