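import Mathlib

/-! # S55 G1a (PL5): the double coset formula -/

set_option autoImplicit false
set_option linter.style.haveILetI false

namespace Fermat.Agent.S55Lib

/-- `∑_{g ∈ r(H)\G/U} [H : H ∩ g U g⁻¹] = [G : U]` (orbits of `H` on `G/U`). -/
theorem sum_index_doubleCoset {G H : Type*} [Group G] [Group H] (r : H →* G) (U : Subgroup G)
    [U.FiniteIndex] (S : G → Subgroup H) (hS : ∀ g h, h ∈ S g ↔ g⁻¹ * r h * g ∈ U)
    (R : Finset G) (hR : ∀ g, ∃ g₀ ∈ R, ∃ h : H, ∃ s ∈ U, g = r h * g₀ * s)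
    (hR' : ∀ g ∈ R, ∀ g' ∈ R, (∃ h : H, ∃ s ∈ U, g' = r h * g * s) → g = g') :
    ∑ g ∈ R, (S g).index = U.index := by
  classical
  haveI : Finite (G ⧸ U) := Subgroup.finite_quotient_of_finiteIndex
  haveI : Fintype (G ⧸ U) := Fintype.ofFinite _
  letI : MulAction H (G ⧸ U) := MulAction.compHom (G ⧸ U) r
  have hsmul : ∀ (h : H) (g : G), h • (QuotientGroup.mk g : G ⧸ U) = QuotientGroup.mk (r h * g) :=
    fun h g => rfl
  have hstab : ∀ g : G, MulAction.stabilizer H (QuotientGroup.mk g : G ⧸ U) = S g := by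
    intro g
    ext h
    rw [MulAction.mem_stabilizer_iff, hsmul, hS, eq_comm, QuotientGroup.eq, mul_assoc]
  have hidx : ∀ g : G, (S g).index =
      (MulAction.orbit H (QuotientGroup.mk g : G ⧸ U)).toFinset.card := by
    intro g
    rw [← hstab, MulAction.index_stabilizer, Set.ncard_eq_toFinset_card']
  rw [Finset.sum_congr rfl (fun g _ => hidx g), ← Finset.card_biUnion]
  · have huniv : R.biUnion (fun g => (MulAction.orbit H (QuotientGroup.mk g : G ⧸ U)).toFinset) =
        Finset.univ := by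
      apply Finset.eq_univ_of_forall
      intro x
      induction x using QuotientGroup.induction_on with
      | H g =>
        obtain ⟨g₀, hg₀, h, s, hs, rfl⟩ := hR g
        rw [Finset.mem_biUnion]
        refine ⟨g₀, hg₀, ?_⟩
        rw [Set.mem_toFinset]
        refine ⟨h, ?_⟩
        show h • (QuotientGroup.mk g₀ : G ⧸ U) = _
        rw [hsmul, QuotientGroup.eq]
        have : (r h * g₀)⁻¹ * (r h * g₀ * s) = s := by group
        rw [this]
        exact hs
    rw [huniv, Finset.card_univ, Subgroup.index, Nat.card_eq_fintype_card]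
  · intro g hg g' hg' hne
    show Disjoint (MulAction.orbit H (QuotientGroup.mk g : G ⧸ U)).toFinset
      (MulAction.orbit H (QuotientGroup.mk g' : G ⧸ U)).toFinset
    rw [Finset.disjoint_left]
    intro x hx hx'
    rw [Set.mem_toFinset] at hx hx'
    obtain ⟨h, rfl⟩ := hx
    obtain ⟨h', hh'⟩ := hx'
    apply hne
    apply hR' g hg g' hg'
    have h1 : (QuotientGroup.mk (r h' * g') : G ⧸ U) = QuotientGroup.mk (r h * g) := hh'
    rw [eq_comm, QuotientGroup.eq] at h1
    refine ⟨h'⁻¹ * h, _, h1, ?_⟩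
    rw [map_mul, map_inv]
    group

end Fermat.Agent.S55Lib
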