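import Fermat.Agent.S55.G.LocFix
import Fermat.Agent.S55.G.DoubleCoset

/-! # S55 G1a (PL6): the sum of the local degrees -/

set_option autoImplicit false
set_option linter.unusedSectionVars false
set_option linter.unusedVariables false
set_option linter.style.haveILetI false

namespace Fermat.Agent.S55Lib

noncomputable section

theorem sum_local_degrees (F : IntermediateField ℚ Qbar) [FiniteDimensional ℚ F] (q : Nat.Primes)
    (R : Finset GQ) (hR : ∀ g, ∃ g₀ ∈ R, SamePlace q F g₀ g)
    (hR' : ∀ g ∈ R, ∀ g' ∈ R, SamePlace q F g g' → g = g') :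
    ∑ g ∈ R, Module.finrank ℚ_[(q : ℕ)] (locF q g F) = Module.finrank ℚ F := by
  haveI := finiteIndex_fix F
  have h1 : Module.finrank ℚ F = F.fixingSubgroup.index :=
    IntermediateField.finrank_eq_fixingSubgroup_index _ F
  have h2 := sum_index_doubleCoset (rq q) F.fixingSubgroup (fun g => (locF q g F).fixingSubgroup)
      (fun g h => mem_fixingSubgroup_locF_iff q g F h) R hR hR'
  have h3 : ∀ g ∈ R, Module.finrank ℚ_[(q : ℕ)] (locF q g F) = (locF q g F).fixingSubgroup.index :=
    fun g _ => IntermediateField.finrank_eq_fixingSubgroup_index _ _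
  exact (Finset.sum_congr rfl h3).trans (h2.trans h1.symm)

end

end Fermat.Agent.S55Lib
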