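import Fermat.Agent.S55.G.G1Defs

/-! # S55 G1a (CG2): the ideal of an idele -/

set_option autoImplicit false
set_option linter.unusedSectionVars false
set_option linter.unusedVariables false

namespace Fermat.Agent.S55Lib

noncomputable section

open NumberField

instance numberFieldF (F : IntermediateField ℚ Qbar) [FiniteDimensional ℚ F] : NumberField F where
  to_charZero := inferInstance
  to_finiteDimensional := inferInstance

/-- elements of `𝓞 F` have norm `≤ 1` at all places -/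
theorem norm_iq_integer_le_one {F : IntermediateField ℚ Qbar} (a : 𝓞 F) (q : Nat.Primes) (g : GQ) :
    ‖iq q (g (((a : 𝓞 F) : F) : Qbar))‖ ≤ 1 := by
  apply norm_iq_le_one_of_isIntegral
  have h1 : IsIntegral ℤ ((a : 𝓞 F) : F) := a.2
  have h2 : IsIntegral ℤ (((a : 𝓞 F) : F) : Qbar) := h1.map (F.val.restrictScalars ℤ)
  exact h2.map (g.restrictScalars ℤ)

/-- the ideal of an idele -/
def idl (F : IntermediateField ℚ Qbar) (x : JJ) : Ideal (𝓞 F) where
  carrier := {a | ∀ q g, ‖iq q (g (((a : 𝓞 F) : F) : Qbar))‖ ≤ ‖((cmp x q g : (Om q)ˣ) : Om q)‖}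
  add_mem' := by
    intro a b ha hb q g
    have h : iq q (g ((((a + b : 𝓞 F) : 𝓞 F) : F) : Qbar)) =
        iq q (g (((a : 𝓞 F) : F) : Qbar)) + iq q (g (((b : 𝓞 F) : F) : Qbar)) := by
      simp
    rw [h]
    exact (PadicAlgCl.isNonarchimedean _ _ _).trans (max_le (ha q g) (hb q g))
  zero_mem' := by
    intro q g
    simp
  smul_mem' := by
    intro c a ha q g
    have h : iq q (g ((((c • a : 𝓞 F) : 𝓞 F) : F) : Qbar)) =
        iq q (g (((c : 𝓞 F) : F) : Qbar)) * iq q (g (((a : 𝓞 F) : F) : Qbar)) := by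
      simp
    rw [h, norm_mul]
    calc ‖iq q (g (((c : 𝓞 F) : F) : Qbar))‖ * ‖iq q (g (((a : 𝓞 F) : F) : Qbar))‖
        ≤ 1 * ‖iq q (g (((a : 𝓞 F) : F) : Qbar))‖ :=
          mul_le_mul_of_nonneg_right (norm_iq_integer_le_one c q g) (norm_nonneg _)
      _ = ‖iq q (g (((a : 𝓞 F) : F) : Qbar))‖ := one_mul _
      _ ≤ _ := ha q g

theorem mem_idl {F : IntermediateField ℚ Qbar} {x : JJ} {a : 𝓞 F} : a ∈ idl F x ↔
    ∀ q g, ‖iq q (g (((a : 𝓞 F) : F) : Qbar))‖ ≤ ‖((cmp x q g : (Om q)ˣ) : Om q)‖ := Iff.rfl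

theorem idl_mul_le (F : IntermediateField ℚ Qbar) (x y : JJ) :
    idl F x * idl F y ≤ idl F (x * y) := by
  rw [Ideal.mul_le]
  intro a ha b hb q g
  have h : iq q (g ((((a * b : 𝓞 F) : 𝓞 F) : F) : Qbar)) =
      iq q (g (((a : 𝓞 F) : F) : Qbar)) * iq q (g (((b : 𝓞 F) : F) : Qbar)) := by
    simp
  rw [h, norm_mul, cmp_mul, Units.val_mul, norm_mul]
  exact mul_le_mul (ha q g) (hb q g) (norm_nonneg _) (norm_nonneg _)

theorem idl_pow_le (F : IntermediateField ℚ Qbar) (x : JJ) (n : ℕ) :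
    idl F x ^ n ≤ idl F (x ^ n) := by
  induction n with
  | zero =>
    intro a _ q g
    rw [pow_zero, cmp_one, Units.val_one, norm_one]
    exact norm_iq_integer_le_one a q g
  | succ n ih =>
    rw [pow_succ, pow_succ]
    exact (Ideal.mul_mono_left ih).trans (idl_mul_le F _ _)

end

end Fermat.Agent.S55Lib
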