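import Fermat.Agent.S55.G.Integral
import Fermat.Agent.S55.G.Idl

/-! # S55 G1a (TU3): `E_∅(F) = (𝓞 F)ˣ` -/

set_option autoImplicit false
set_option linter.unusedSectionVars false
set_option linter.unusedVariables false
set_option linter.style.haveILetI false

namespace Fermat.Agent.S55Lib

noncomputable section

open NumberField

/-- the inclusion `𝓞 F → ℚ̄` -/
def TU3_coe (F : IntermediateField ℚ Qbar) : 𝓞 F →+* Qbar :=
  F.val.toRingHom.comp (algebraMap (𝓞 F) F)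

theorem TU3_coe_apply (F : IntermediateField ℚ Qbar) (a : 𝓞 F) :
    TU3_coe F a = (((a : 𝓞 F) : F) : Qbar) := rfl

theorem TU3_coe_injective (F : IntermediateField ℚ Qbar) : Function.Injective (TU3_coe F) := by
  intro a b h
  apply Subtype.ext
  apply Subtype.ext
  exact h

theorem TU3_mem (F : IntermediateField ℚ Qbar) (u : (𝓞 F)ˣ) :
    Units.map (TU3_coe F : 𝓞 F →* Qbar) u ∈ EFT F ∅ := by
  refine ⟨(((u : 𝓞 F) : F)).2, fun q _ g => ?_⟩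
  have h1 := norm_iq_integer_le_one (u : 𝓞 F) q g
  have h2 := norm_iq_integer_le_one ((u⁻¹ : (𝓞 F)ˣ) : 𝓞 F) q g
  have h3 : ‖iq q (g ((((u : 𝓞 F) : 𝓞 F) : F) : Qbar))‖ *
      ‖iq q (g (((((u⁻¹ : (𝓞 F)ˣ) : 𝓞 F) : 𝓞 F) : F) : Qbar))‖ = 1 := by
    rw [← norm_mul, ← map_mul, ← map_mul, ← TU3_coe_apply, ← TU3_coe_apply, ← map_mul,
      Units.mul_inv, map_one, map_one, map_one, norm_one]
  show ‖iq q (g ((((u : 𝓞 F) : 𝓞 F) : F) : Qbar))‖ = 1
  apply le_antisymm h1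
  by_contra hlt
  push Not at hlt
  have h4 : ‖iq q (g ((((u : 𝓞 F) : 𝓞 F) : F) : Qbar))‖ *
      ‖iq q (g (((((u⁻¹ : (𝓞 F)ˣ) : 𝓞 F) : 𝓞 F) : F) : Qbar))‖ < 1 :=
    mul_lt_one_of_nonneg_of_lt_one_left (norm_nonneg _) hlt h2
  exact absurd h3 h4.ne

theorem TU3_integral (F : IntermediateField ℚ Qbar) (a : Qbarˣ) (ha : a ∈ EFT F ∅) :
    IsIntegral ℤ (⟨(a : Qbar), ha.1⟩ : F) := by
  have h1 : IsIntegral ℤ (a : Qbar) :=
    isIntegral_of_norm_le_one _ (fun q g => (ha.2 q (Finset.notMem_empty q) g).le)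
  exact (isIntegral_algHom_iff (F.val.restrictScalars ℤ) F.val.injective).mp h1

theorem exists_units_equiv (F : IntermediateField ℚ Qbar) [FiniteDimensional ℚ F] :
    ∃ e : EFT F ∅ ≃* (𝓞 F)ˣ, ∀ a : EFT F ∅,
      ((((e a : (𝓞 F)ˣ) : 𝓞 F) : F) : Qbar) = ((a : Qbarˣ) : Qbar) := by
  let f : (𝓞 F)ˣ →* EFT F ∅ :=
    (Units.map (TU3_coe F : 𝓞 F →* Qbar)).codRestrict (EFT F ∅) (TU3_mem F)
  have hf : ∀ u : (𝓞 F)ˣ, (((f u : EFT F ∅) : Qbarˣ) : Qbar) = ((((u : 𝓞 F) : 𝓞 F) : F) : Qbar) :=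
    fun u => rfl
  have hinj : Function.Injective f := by
    intro u v huv
    apply Units.ext
    apply TU3_coe_injective F
    have := congrArg (fun z : EFT F ∅ => ((z : Qbarˣ) : Qbar)) huv
    exact this
  have hsurj : Function.Surjective f := by
    intro a
    have hinv : (a : Qbarˣ)⁻¹ ∈ EFT F ∅ := inv_mem a.2
    let b : 𝓞 F := ⟨⟨((a : Qbarˣ) : Qbar), a.2.1⟩, TU3_integral F a a.2⟩
    let b' : 𝓞 F := ⟨⟨(((a : Qbarˣ)⁻¹ : Qbarˣ) : Qbar), hinv.1⟩, TU3_integral F _ hinv⟩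
    have hbb : b * b' = 1 := by
      apply TU3_coe_injective F
      rw [map_mul, map_one]
      show ((a : Qbarˣ) : Qbar) * (((a : Qbarˣ)⁻¹ : Qbarˣ) : Qbar) = 1
      exact Units.mul_inv _
    refine ⟨⟨b, b', hbb, by rw [mul_comm]; exact hbb⟩, ?_⟩
    apply Subtype.ext
    apply Units.ext
    rfl
  refine ⟨(MulEquiv.ofBijective f ⟨hinj, hsurj⟩).symm, fun a => ?_⟩
  rw [← hf]
  congr 2
  exact (MulEquiv.ofBijective f ⟨hinj, hsurj⟩).apply_symm_apply a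

end

end Fermat.Agent.S55Lib
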