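import Fermat.Agent.S55.G.ClassNumber
import Fermat.Agent.S55.G.Single

/-! # S55 G1a (TU6): a `T`-unit supported at one place -/

set_option autoImplicit false
set_option linter.unusedSectionVars false
set_option linter.unusedVariables false
set_option linter.style.haveILetI false

namespace Fermat.Agent.S55Lib

noncomputable section

theorem exists_TUnit_single (F : IntermediateField ℚ Qbar) [FiniteDimensional ℚ F]
    (q : Nat.Primes) (g₀ : GQ) :
    ∃ a : Qbarˣ, (a : Qbar) ∈ F ∧ ‖iq q (g₀ (a : Qbar))‖ ≠ 1 ∧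
      (∀ g, ¬ SamePlace q F g₀ g → ‖iq q (g (a : Qbar))‖ = 1) ∧
      ∀ q' ≠ q, ∀ g : GQ, ‖iq q' (g (a : Qbar))‖ = 1 := by
  have hq0 : (((q : ℕ) : ℕ) : Om q) ≠ 0 := by exact_mod_cast q.2.ne_zero
  obtain ⟨x, hx, hx1, hx2, hx3⟩ := exists_single F q g₀ (Units.mk0 _ hq0) (natCast_mem _ _)
  obtain ⟨h, hh, hcl⟩ := exists_classNumber F
  obtain ⟨a, ha, u, hu, hxa⟩ := hcl x hx
  have hu1 : ∀ q' g, ‖((cmp u q' g : (Om q')ˣ) : Om q')‖ = 1 :=
    fun q' g => (Subgroup.mem_inf.mp hu).2.2 q' (Finset.notMem_empty q') g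
  have hn : ∀ q' g, ‖iq q' (g (a : Qbar))‖ = ‖((cmp x q' g : (Om q')ˣ) : Om q')‖ ^ h := by
    intro q' g
    have h1 : cmp (x ^ h) q' g = cmp (diag a) q' g * cmp u q' g := by rw [hxa, cmp_mul]
    have h2 := congrArg (fun z : (Om q')ˣ => ‖(z : Om q')‖) h1
    simp only [cmp_pow, Units.val_pow_eq_pow_val, norm_pow, Units.val_mul, norm_mul, hu1,
      mul_one, diag_comp] at h2
    exact h2.symm
  refine ⟨a, ha, ?_, ?_, ?_⟩
  · rw [hn, hx1, Units.val_mk0, norm_q_Om]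
    have h2 : (2 : ℝ) ≤ ((q : ℕ) : ℝ) := by exact_mod_cast q.2.two_le
    have h3 : ((q : ℕ) : ℝ)⁻¹ < 1 := inv_lt_one_of_one_lt₀ (by linarith)
    exact (pow_lt_one₀ (inv_nonneg.mpr (by linarith)) h3 hh.ne').ne
  · intro g hg
    rw [hn, hx2 g hg, Units.val_one, norm_one, one_pow]
  · intro q' hq' g
    rw [hn, hx3 q' hq' g, Units.val_one, norm_one, one_pow]

end

end Fermat.Agent.S55Lib
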