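import Mathlib

/-! # S55 G1a (TU1): a number field containing `μ_p`, `p` odd, is totally complex -/

set_option autoImplicit false

namespace Fermat.Agent.S55Lib

open NumberField

theorem nrRealPlaces_eq_zero_of_root (p : ℕ) [Fact p.Prime] (hp2 : p ≠ 2)
    (K : Type) [Field K] [NumberField K] (ζ : K) (hζ : IsPrimitiveRoot ζ p) :
    NumberField.InfinitePlace.nrRealPlaces K = 0 := by
  have hp : p.Prime := Fact.out
  have h2 : 2 < p := lt_of_le_of_ne hp.two_le (Ne.symm hp2)
  exact NumberField.InfinitePlace.IsPrimitiveRoot.nrRealPlaces_eq_zero_of_two_lt h2 hζ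

end Fermat.Agent.S55Lib
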