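import Fermat.Agent.S55.G.LocSurj
import Fermat.Agent.S55.L.Unif

/-! # S55 G1a (TU4): a discrete valuation at each place -/

set_option autoImplicit false
set_option linter.unusedSectionVars false
set_option linter.unusedVariables false
set_option linter.style.haveILetI false

namespace Fermat.Agent.S55Lib

noncomputable section

theorem TU4_nm_eq (q : Nat.Primes) (E : IntermediateField ℚ_[(q : ℕ)] (Om q)) (y : E) :
    nm (q : ℕ) y = ‖(y : Om q)‖ := by
  have h1 : nm (q : ℕ) (E.val y) = nm (q : ℕ) y := nm_algHom (q : ℕ) E.val y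
  rw [← h1]
  rfl

theorem TU4_exists_zpow (F : IntermediateField ℚ Qbar) [FiniteDimensional ℚ F] (q : Nat.Primes)
    (g : GQ) (a : Qbar) (ha : a ∈ F) (ha0 : a ≠ 0) :
    ∃ k : ℤ, ‖iq q (g a)‖ ^ Module.finrank ℚ_[(q : ℕ)] (locF q g F) = (((q : ℕ) : ℕ) : ℝ) ^ k := by
  have hy0 : (⟨iq q (g a), iq_mem_locF q g F ha⟩ : locF q g F) ≠ 0 := by
    intro h0
    have h1 : iq q (g a) = 0 := congrArg Subtype.val h0
    rw [map_eq_zero, map_eq_zero] at h1
    exact ha0 h1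
  obtain ⟨k, hk⟩ := exists_zpow_of_nm_pow (q : ℕ) _ hy0
  rw [TU4_nm_eq] at hk
  exact ⟨k, hk⟩

theorem exists_val (F : IntermediateField ℚ Qbar) [FiniteDimensional ℚ F] (q : Nat.Primes)
    (g : GQ) : ∃ v : FX F →* Multiplicative ℤ, ∀ a : FX F,
      (v a = 1 ↔ ‖iq q (g ((a : Qbarˣ) : Qbar))‖ = 1) := by
  have hd : 0 < Module.finrank ℚ_[(q : ℕ)] (locF q g F) := Module.finrank_pos
  have h := fun a : FX F => TU4_exists_zpow F q g ((a : Qbarˣ) : Qbar) a.2 (Units.ne_zero _)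
  choose k hk using h
  have hq1 : (1 : ℝ) < (((q : ℕ) : ℕ) : ℝ) := by exact_mod_cast q.2.one_lt
  have hinj : Function.Injective (fun n : ℤ => (((q : ℕ) : ℕ) : ℝ) ^ n) :=
    zpow_right_injective₀ (by linarith) hq1.ne'
  have hmul : ∀ a b : FX F, k (a * b) = k a + k b := by
    intro a b
    apply hinj
    show (((q : ℕ) : ℕ) : ℝ) ^ k (a * b) = (((q : ℕ) : ℕ) : ℝ) ^ (k a + k b)
    rw [zpow_add₀ (by linarith), ← hk, ← hk, ← hk, ← mul_pow, ← norm_mul, ← map_mul, ← map_mul]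
    rfl
  refine ⟨MonoidHom.mk' (fun a => Multiplicative.ofAdd (k a)) (fun a b => by
    rw [hmul]; rfl), fun a => ?_⟩
  show Multiplicative.ofAdd (k a) = 1 ↔ _
  rw [ofAdd_eq_one]
  constructor
  · intro h0
    have h1 := hk a
    rw [h0, zpow_zero] at h1
    exact (pow_eq_one_iff_of_nonneg (norm_nonneg _) hd.ne').mp h1
  · intro h1
    have h2 := hk a
    rw [h1, one_pow] at h2
    apply hinj
    show (((q : ℕ) : ℕ) : ℝ) ^ k a = (((q : ℕ) : ℕ) : ℝ) ^ (0 : ℤ)
    rw [← h2, zpow_zero]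

end

end Fermat.Agent.S55Lib
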