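import Fermat.Agent.S55.G.QVals
import Fermat.Agent.S55.G.Val
import Fermat.Agent.S55.G.SUnit
import Fermat.Agent.S55.G.EEmpty
import Fermat.Agent.S55.G.TotComplex

/-! # S55 G1a (TU7): the `T`-unit theorem mod `p` -/

set_option autoImplicit false
set_option linter.unusedSectionVars false
set_option linter.unusedVariables false
set_option linter.style.haveILetI false

namespace Fermat.Agent.S55Lib

noncomputable section

open NumberField

theorem card_quot_pow_eq (p : ℕ) (E : Type) [CommGroup E] :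
    Nat.card (E ⧸ (powMonoidHom p : E →* E).range) =
      Nat.card (Additive E ⧸ (mulp p (Additive E)).range) := by
  apply Nat.card_congr
  refine Quotient.congr Additive.ofMul ?_
  intro a b
  rw [QuotientGroup.leftRel_apply, QuotientAddGroup.leftRel_apply]
  constructor
  · rintro ⟨c, hc⟩
    exact ⟨Additive.ofMul c, hc⟩
  · rintro ⟨c, hc⟩
    exact ⟨Additive.toMul c, hc⟩

theorem TU7_root_mem (p : ℕ) [Fact p.Prime] (F : IntermediateField ℚ Qbar) (hμ : HasMu p F)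
    (T : Finset Nat.Primes) (z : Qbarˣ) (hz : z ^ p = 1) : z ∈ EFT F T := by
  have hp : p.Prime := Fact.out
  have hz' : (z : Qbar) ^ p = 1 := by rw [← Units.val_pow_eq_pow_val, hz, Units.val_one]
  refine ⟨hμ _ hz', fun q _ g => ?_⟩
  have h1 : ‖iq q (g (z : Qbar))‖ ^ p = 1 := by
    rw [← norm_pow, ← map_pow, ← map_pow, hz', map_one, map_one, norm_one]
  exact (pow_eq_one_iff_of_nonneg (norm_nonneg _) hp.ne_zero).mp h1

theorem TU7_card_torsion (p : ℕ) [Fact p.Prime] (F : IntermediateField ℚ Qbar) (hμ : HasMu p F)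
    (T : Finset Nat.Primes) : Nat.card (mulp p (Additive (EFT F T))).ker = p := by
  haveI : NeZero p := ⟨(Fact.out : p.Prime).ne_zero⟩
  have h1 : Nat.card (rootsOfUnity p Qbar) = p := HasEnoughRootsOfUnity.natCard_rootsOfUnity _ _
  refine Eq.trans ?_ h1
  let f : (mulp p (Additive (EFT F T))).ker → rootsOfUnity p Qbar := fun a =>
    ⟨((Additive.toMul (a : Additive (EFT F T)) : EFT F T) : Qbarˣ), by
      rw [mem_rootsOfUnity]
      have h2 : p • (a : Additive (EFT F T)) = 0 := a.2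
      have h3 : (Additive.toMul (a : Additive (EFT F T)) : EFT F T) ^ p = 1 := h2
      exact congrArg Subtype.val h3⟩
  apply Nat.card_congr
  refine Equiv.ofBijective f ⟨?_, ?_⟩
  · intro a b hab
    apply Subtype.ext
    have h2 : ((Additive.toMul (a : Additive (EFT F T)) : EFT F T) : Qbarˣ) =
        ((Additive.toMul (b : Additive (EFT F T)) : EFT F T) : Qbarˣ) :=
      congrArg (fun y : rootsOfUnity p Qbar => (y : Qbarˣ)) hab
    exact Subtype.ext h2
  · intro z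
    have hz : (z : Qbarˣ) ^ p = 1 := (mem_rootsOfUnity _ _).mp z.2
    refine ⟨⟨Additive.ofMul ⟨(z : Qbarˣ), TU7_root_mem p F hμ T _ hz⟩, ?_⟩, rfl⟩
    show p • Additive.ofMul (⟨(z : Qbarˣ), TU7_root_mem p F hμ T _ hz⟩ : EFT F T) = 0
    exact congrArg Additive.ofMul (Subtype.ext hz)

theorem EFT_empty_le (F : IntermediateField ℚ Qbar) (T : Finset Nat.Primes) :
    EFT F ∅ ≤ EFT F T :=
  fun a ha => ⟨ha.1, fun q _ g => ha.2 q (Finset.notMem_empty q) g⟩

theorem EFT_le_FX (F : IntermediateField ℚ Qbar) (T : Finset Nat.Primes) : EFT F T ≤ FX F :=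
  fun a ha => ha.1

/-- the kernel of the valuations is `E_∅` -/
def TU7_kerEquiv (F : IntermediateField ℚ Qbar) (T : Finset Nat.Primes) {W : Type}
    (v : EFT F T →* (W → Multiplicative ℤ))
    (hv : ∀ a : EFT F T, v a = 1 ↔ (a : Qbarˣ) ∈ EFT F ∅) : v.ker ≃* EFT F ∅ where
  toFun a := ⟨((a : EFT F T) : Qbarˣ), (hv a).mp a.2⟩
  invFun b := ⟨⟨(b : Qbarˣ), EFT_empty_le F T b.2⟩, (hv _).mpr b.2⟩
  left_inv a := rfl
  right_inv b := rfl
  map_mul' a b := rfl

theorem TU7_arith (p : ℕ) (hp : p ≠ 0) (c k r w : ℕ) (hk : k = p)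
    (h : (c : ℚ) / k = (p : ℚ) ^ r * (p : ℚ) ^ w) : c = p ^ (w + (r + 1)) := by
  have hp' : (p : ℚ) ≠ 0 := by exact_mod_cast hp
  rw [hk, div_eq_iff hp'] at h
  have h2 : (c : ℚ) = ((p ^ (w + (r + 1)) : ℕ) : ℚ) := by
    rw [h]; push_cast; ring
  exact_mod_cast h2

theorem card_TUnits_mod_p (p : ℕ) [Fact p.Prime] (hp2 : p ≠ 2)
    (F : IntermediateField ℚ Qbar) [FiniteDimensional ℚ F] (hμ : HasMu p F)
    (T : Finset Nat.Primes) (t : ℕ) (ht : IsPlaceCount F T t) :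
    Nat.card (EFT F T ⧸ (powMonoidHom p : EFT F T →* EFT F T).range) =
      p ^ (t + Module.finrank ℚ F / 2) ∧ 2 ∣ Module.finrank ℚ F := by
  classical
  have hp : p.Prime := Fact.out
  haveI : NeZero p := ⟨hp.ne_zero⟩
  obtain ⟨R, hR1, hR2, rfl⟩ := ht
  -- archimedean part
  obtain ⟨z, hz⟩ := HasEnoughRootsOfUnity.exists_primitiveRoot Qbar p
  have hzF : z ∈ F := hμ z hz.pow_eq_one
  have hζ : IsPrimitiveRoot (⟨z, hzF⟩ : F) p :=
    IsPrimitiveRoot.of_map_of_injective (f := F.val) hz F.val.injective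
  have hreal := nrRealPlaces_eq_zero_of_root p hp2 F _ hζ
  have hdeg := NumberField.InfinitePlace.card_add_two_mul_card_eq_rank F
  have hcard := NumberField.InfinitePlace.card_eq_nrRealPlaces_add_nrComplexPlaces F
  rw [hreal, zero_add] at hdeg hcard
  have hpos : 0 < Module.finrank ℚ F := Module.finrank_pos
  have hrank : NumberField.Units.rank F + 1 = Module.finrank ℚ F / 2 := by
    rw [NumberField.Units.rank, hcard, ← hdeg]
    omega
  refine ⟨?_, ⟨_, hdeg.symm⟩⟩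
  -- the valuations
  let W : Type := Σ q : {q // q ∈ T}, {g // g ∈ R (q : Nat.Primes)}
  have hW : Fintype.card W = ∑ q ∈ T, (R q).card := by
    rw [Fintype.card_sigma]
    simp only [Fintype.card_coe]
    exact Finset.sum_coe_sort T (fun q => (R q).card)
  have hval := fun w : W => exists_val F (w.1 : Nat.Primes) (w.2 : GQ)
  choose vw hvw using hval
  let v : EFT F T →* (W → Multiplicative ℤ) :=
    MonoidHom.pi (fun w => (vw w).comp (Subgroup.inclusion (EFT_le_FX F T)))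
  have hvapp : ∀ (a : EFT F T) (w : W), (v a w = 1 ↔
      ‖iq (w.1 : Nat.Primes) ((w.2 : GQ) ((a : Qbarˣ) : Qbar))‖ = 1) :=
    fun a w => hvw w (Subgroup.inclusion (EFT_le_FX F T) a)
  have hker : ∀ a : EFT F T, v a = 1 ↔ (a : Qbarˣ) ∈ EFT F ∅ := by
    intro a
    constructor
    · intro h
      refine ⟨a.2.1, fun q _ g => ?_⟩
      by_cases hq : q ∈ T
      · obtain ⟨g₀, hg₀, hs⟩ := hR1 q g
        rw [hs.norm_eq a.2.1]
        exact (hvapp a (⟨⟨q, hq⟩, ⟨g₀, hg₀⟩⟩ : W)).mp (congrFun h _)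
      · exact a.2.2 q hq g
    · intro h
      ext w
      exact congrArg _ ((hvapp a w).mpr (h.2 _ (Finset.notMem_empty _) _))
  have hdiag : ∀ w, ∃ a : EFT F T, v a w ≠ 1 ∧ ∀ w' ≠ w, v a w' = 1 := by
    rintro ⟨⟨q, hq⟩, ⟨g₀, hg₀⟩⟩
    obtain ⟨a, haF, h1, h2, h3⟩ := exists_TUnit_single F q g₀
    have haT : a ∈ EFT F T := ⟨haF, fun q' hq' g => h3 q' (fun h => hq' (h ▸ hq)) g⟩
    refine ⟨⟨a, haT⟩, fun h => h1 ((hvapp ⟨a, haT⟩ (⟨⟨q, hq⟩, ⟨g₀, hg₀⟩⟩ : W)).mp h), ?_⟩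
    rintro ⟨⟨q', hq'⟩, ⟨g', hg'⟩⟩ hne
    refine (hvapp ⟨a, haT⟩ (⟨⟨q', hq'⟩, ⟨g', hg'⟩⟩ : W)).mpr ?_
    show ‖iq q' (g' (a : Qbar))‖ = 1
    by_cases hqq : q' = q
    · subst hqq
      apply h2
      intro hs
      apply hne
      have := hR2 q' g₀ hg₀ g' hg' hs
      subst this
      rfl
    · exact h3 q' hqq g'
  -- the q-index
  obtain ⟨e, -⟩ := exists_units_equiv F
  have hU := qInd_mulp_fg (A := Additive (𝓞 F)ˣ) p
  rw [NumberField.Units.finrank_eq] at hU
  have hK := qInd_mulp_congr p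
    (MulEquiv.toAdditive ((TU7_kerEquiv F T v hker).trans e).symm) hU.1
  have hE := qInd_of_vals p v hdiag hK.1
  rw [hK.2, hU.2, hW] at hE
  rw [card_quot_pow_eq, ← hrank]
  exact TU7_arith p hp.ne_zero _ _ _ _ (TU7_card_torsion p F hμ T) hE.2

end

end Fermat.Agent.S55Lib
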