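import Fermat.Agent.S55.G.DescentC
import Fermat.Agent.S55.G.Single
import Fermat.Agent.S55.G.SumDeg
import Fermat.Agent.S55.G.LocFin
import Fermat.Agent.S55.G.ClassTrivial
import Fermat.Agent.S55.G.TUnits

/-! # S55 chapter G1a: all roots (aggregator)

`diag_injective diag_mem_JF_iff exists_JF_of_mem_CF exists_level_JJ cmp_mem_locF
finiteDimensional_locF exists_single finite_places sum_local_degrees
exists_T_classGroup_trivial exists_classNumber card_TUnits_mod_p`
-/
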