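import Fermat.Agent.S55.G.Attained

/-! # S55 G1a (CG4): the class number, idelic form -/

set_option autoImplicit false
set_option linter.unusedSectionVars false
set_option linter.unusedVariables false
set_option linter.style.haveILetI false

namespace Fermat.Agent.S55Lib

noncomputable section

open NumberField nonZeroDivisors

theorem cmp_pow (x : JJ) (n : ℕ) (q : Nat.Primes) (g : GQ) :
    cmp (x ^ n) q g = cmp x q g ^ n := by
  induction n with
  | zero => rw [pow_zero, pow_zero, cmp_one]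
  | succ n ih => rw [pow_succ, pow_succ, cmp_mul, ih]

/-- multiply an idele of `F` by a positive integer to make it integral -/
theorem exists_integral_scale (F : IntermediateField ℚ Qbar) [FiniteDimensional ℚ F] (x : JJ)
    (hx : x ∈ JF F) : ∃ μ ∈ FX F, diag μ * x ∈ JF F ∧
      ∀ q g, ‖((cmp (diag μ * x) q g : (Om q)ˣ) : Om q)‖ ≤ 1 := by
  obtain ⟨m, hm0, hm⟩ := exists_nat_scale x
  have hmQ : (m : Qbar) ≠ 0 := by exact_mod_cast hm0
  have hμ : Units.mk0 (m : Qbar) hmQ ∈ FX F := natCast_mem F m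
  refine ⟨Units.mk0 (m : Qbar) hmQ, hμ, mul_mem ((diag_mem_JF_iff F _).mpr hμ) hx, fun q g => ?_⟩
  rw [cmp_mul, Units.val_mul, norm_mul, diag_comp]
  have h1 : iq q (g ((Units.mk0 (m : Qbar) hmQ : Qbarˣ) : Qbar)) = (m : Om q) := by simp
  rw [h1]
  exact hm q g

/-- the ideal of an integral idele of `F` is nonzero -/
theorem idl_mem_nonZeroDivisors (F : IntermediateField ℚ Qbar) [FiniteDimensional ℚ F] (x : JJ)
    (hx : x ∈ JF F) (hint : ∀ q g, ‖((cmp x q g : (Om q)ˣ) : Om q)‖ ≤ 1) :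
    idl F x ∈ (Ideal (𝓞 F))⁰ := by
  obtain ⟨a, ha, ha0, -⟩ := exists_mem_idl_attained F x hx hint ∅
  rw [mem_nonZeroDivisors_iff_ne_zero]
  intro h0
  rw [h0] at ha
  exact ha0 ((Submodule.mem_bot _).mp ha)

/-- the unit of `ℚ̄` attached to a nonzero integer of `F` -/
def intUnit {F : IntermediateField ℚ Qbar} (b : 𝓞 F) (hb : b ≠ 0) : Qbarˣ :=
  Units.mk0 (((b : 𝓞 F) : F) : Qbar) (by
    intro h0
    apply hb
    apply Subtype.ext
    apply Subtype.ext
    exact h0)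

theorem intUnit_mem {F : IntermediateField ℚ Qbar} (b : 𝓞 F) (hb : b ≠ 0) : intUnit b hb ∈ FX F :=
  ((b : 𝓞 F) : F).2

theorem coe_intUnit {F : IntermediateField ℚ Qbar} (b : 𝓞 F) (hb : b ≠ 0) :
    ((intUnit b hb : Qbarˣ) : Qbar) = (((b : 𝓞 F) : F) : Qbar) := rfl

theorem exists_classNumber (F : IntermediateField ℚ Qbar) [FiniteDimensional ℚ F] :
    ∃ h : ℕ, 0 < h ∧ ∀ x ∈ JF F, ∃ a ∈ FX F, ∃ u ∈ JF F ⊓ UId ∅, x ^ h = diag a * u := by
  classical
  refine ⟨Fintype.card (ClassGroup (𝓞 F)), Fintype.card_pos, fun x hx => ?_⟩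
  obtain ⟨h, hh⟩ : ∃ h : ℕ, h = Fintype.card (ClassGroup (𝓞 F)) := ⟨_, rfl⟩
  rw [← hh]
  obtain ⟨μ, hμ, hx', hint⟩ := exists_integral_scale F x hx
  obtain ⟨x', hx'def⟩ : ∃ x' : JJ, x' = diag μ * x := ⟨_, rfl⟩
  rw [← hx'def] at hx' hint
  have hI := idl_mem_nonZeroDivisors F x' hx' hint
  have hpow : (idl F x' ^ h).IsPrincipal := by
    have h1 : (ClassGroup.mk0 ⟨idl F x', hI⟩) ^ h = 1 := by rw [hh]; exact pow_card_eq_one
    rw [← map_pow] at h1
    exact (ClassGroup.mk0_eq_one_iff (pow_mem hI h)).mp h1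
  obtain ⟨b, hb⟩ := hpow
  have hb' : idl F x' ^ h = Ideal.span {b} := hb
  have hb0 : b ≠ 0 := by
    rintro rfl
    have h1 : idl F x' ^ h = ⊥ := by rw [hb']; simp
    exact (mem_nonZeroDivisors_iff_ne_zero.mp (pow_mem hI h)) h1
  have hnorm : ∀ q g, ‖iq q (g (((b : 𝓞 F) : F) : Qbar))‖ =
      ‖((cmp x' q g : (Om q)ˣ) : Om q)‖ ^ h := by
    intro q g
    apply le_antisymm
    · have h1 : b ∈ idl F (x' ^ h) :=
        idl_pow_le F x' h (by rw [hb']; exact Ideal.mem_span_singleton_self b)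
      have h2 := h1 q g
      rwa [cmp_pow, Units.val_pow_eq_pow_val, norm_pow] at h2
    · obtain ⟨a, ha, -, hatt⟩ := exists_mem_idl_attained F x' hx' hint {q}
      have h1 : a ^ h ∈ Ideal.span {b} := by rw [← hb']; exact Ideal.pow_mem_pow ha h
      obtain ⟨c, hc⟩ := Ideal.mem_span_singleton'.mp h1
      rw [← hatt q (Finset.mem_singleton_self q) g, ← norm_pow, ← map_pow, ← map_pow]
      have h2 : (((a : 𝓞 F) : F) : Qbar) ^ h =
          (((c : 𝓞 F) : F) : Qbar) * (((b : 𝓞 F) : F) : Qbar) := by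
        have := congrArg (fun y : 𝓞 F => ((y : F) : Qbar)) hc
        simpa using this.symm
      rw [h2, map_mul, map_mul, norm_mul]
      exact mul_le_of_le_one_left (norm_nonneg _) (norm_iq_integer_le_one c q g)
  have hβ := intUnit_mem b hb0
  refine ⟨intUnit b hb0 * (μ ^ h)⁻¹, mul_mem hβ (inv_mem (pow_mem hμ h)),
    x' ^ h * (diag (intUnit b hb0))⁻¹, Subgroup.mem_inf.mpr ⟨?_, ?_, ?_⟩, ?_⟩
  · exact mul_mem (pow_mem hx' h) (inv_mem ((diag_mem_JF_iff F _).mpr hβ))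
  · intro q hq
    exact absurd hq (Finset.notMem_empty q)
  · intro q _ g
    rw [cmp_mul, cmp_inv, cmp_pow, Units.val_mul, Units.val_inv_eq_inv_val,
      Units.val_pow_eq_pow_val, norm_mul, norm_inv, norm_pow, diag_comp, coe_intUnit, hnorm]
    exact mul_inv_cancel₀ (pow_ne_zero _ (norm_ne_zero_iff.mpr (Units.ne_zero _)))
  · rw [hx'def, map_mul, map_inv, map_pow, mul_pow]
    have hcomm : ∀ A B C : JJ, C = A * B⁻¹ * (B * C * A⁻¹) := by
      intro A B C
      rw [mul_comm B C, mul_assoc C B, mul_comm A, mul_assoc, mul_comm C, ← mul_assoc A,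
        ← mul_assoc A, mul_comm A B, mul_assoc B A, mul_inv_cancel, mul_one, ← mul_assoc,
        inv_mul_cancel, one_mul]
    exact hcomm _ _ _

end

end Fermat.Agent.S55Lib
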