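import Fermat.Agent.S55.G.LocSurj
import Fermat.Agent.S55.G.Reps

/-! # S55 G1a (AP4): weak approximation above one prime -/

set_option autoImplicit false
set_option linter.unusedSectionVars false
set_option linter.unusedVariables false
set_option linter.style.haveILetI false

namespace Fermat.Agent.S55Lib

noncomputable section

theorem approx_at_q (F : IntermediateField ℚ Qbar) [FiniteDimensional ℚ F] (x : JJ)
    (hx : x ∈ JF F) (q : Nat.Primes) (ε : ℝ) (hε : 0 < ε) :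
    ∃ a ∈ F, ∀ g : GQ, ‖iq q (g a) - ((cmp x q g : (Om q)ˣ) : Om q)‖ < ε := by
  classical
  let b := Module.finBasis ℚ F
  obtain ⟨R, hR, hR'⟩ := exists_reps F q
  obtain ⟨c, hc⟩ := exists_coeff_local F q b R hR hR'
    (fun g => ((cmp x q g : (Om q)ˣ) : Om q)) (fun g _ => cmp_mem_locF F x hx q g)
  obtain ⟨B, hB⟩ : ∃ B : ℝ, B = 1 + ∑ g ∈ R, ∑ j, ‖iq q (g ((b j : F) : Qbar))‖ := ⟨_, rfl⟩
  have hB1 : 0 ≤ ∑ g ∈ R, ∑ j, ‖iq q (g ((b j : F) : Qbar))‖ :=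
    Finset.sum_nonneg (fun g _ => Finset.sum_nonneg (fun j _ => norm_nonneg _))
  have hB0 : 0 < B := by rw [hB]; linarith
  have hr : ∀ j, ∃ r : ℚ, ‖c j - (r : ℚ_[(q : ℕ)])‖ < ε / B :=
    fun j => Padic.rat_dense (q : ℕ) (c j) (div_pos hε hB0)
  choose r hr using hr
  let a : F := ∑ j, r j • b j
  have ha : ∀ g : GQ, iq q (g (a : Qbar)) =
      ∑ j, algebraMap ℚ_[(q : ℕ)] (Om q) (r j : ℚ_[(q : ℕ)]) * iq q (g ((b j : F) : Qbar)) := by
    intro g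
    have h1 : (a : Qbar) = ∑ j, r j • ((b j : F) : Qbar) := by
      have h3 : F.val a = ∑ j, F.val (r j • b j) := map_sum F.val _ _
      simpa using h3
    rw [h1, map_sum, map_sum]
    exact Finset.sum_congr rfl (fun j _ => iq_ratCast_smul q g (r j) _)
  have hRbound : ∀ g ∈ R, ‖iq q (g (a : Qbar)) - ((cmp x q g : (Om q)ˣ) : Om q)‖ < ε := by
    intro g hg
    rw [ha, ← hc g hg, ← Finset.sum_sub_distrib]
    have h1 : ∀ j, ‖algebraMap ℚ_[(q : ℕ)] (Om q) (r j : ℚ_[(q : ℕ)]) * iq q (g ((b j : F) : Qbar)) -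
        algebraMap ℚ_[(q : ℕ)] (Om q) (c j) * iq q (g ((b j : F) : Qbar))‖ ≤
        ε / B * ‖iq q (g ((b j : F) : Qbar))‖ := by
      intro j
      rw [← sub_mul, norm_mul, ← map_sub]
      have h2 : ‖algebraMap ℚ_[(q : ℕ)] (Om q) ((r j : ℚ_[(q : ℕ)]) - c j)‖ =
          ‖(r j : ℚ_[(q : ℕ)]) - c j‖ := PadicAlgCl.norm_extends _ _
      rw [h2, norm_sub_rev]
      exact mul_le_mul_of_nonneg_right (hr j).le (norm_nonneg _)
    have h3 : ∑ j, ‖iq q (g ((b j : F) : Qbar))‖ ≤ B - 1 := by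
      have h4 := Finset.single_le_sum (f := fun g => ∑ j, ‖iq q (g ((b j : F) : Qbar))‖)
        (fun g _ => Finset.sum_nonneg (fun j _ => norm_nonneg _)) hg
      have h5 : ∑ j, ‖iq q (g ((b j : F) : Qbar))‖ ≤
          ∑ g ∈ R, ∑ j, ‖iq q (g ((b j : F) : Qbar))‖ := h4
      linarith
    calc _ ≤ ∑ j, ‖algebraMap ℚ_[(q : ℕ)] (Om q) (r j : ℚ_[(q : ℕ)]) * iq q (g ((b j : F) : Qbar)) -
        algebraMap ℚ_[(q : ℕ)] (Om q) (c j) * iq q (g ((b j : F) : Qbar))‖ := norm_sum_le _ _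
      _ ≤ ∑ j, ε / B * ‖iq q (g ((b j : F) : Qbar))‖ := Finset.sum_le_sum (fun j _ => h1 j)
      _ = ε / B * ∑ j, ‖iq q (g ((b j : F) : Qbar))‖ := by rw [Finset.mul_sum]
      _ ≤ ε / B * (B - 1) := mul_le_mul_of_nonneg_left h3 (div_pos hε hB0).le
      _ < ε / B * B := mul_lt_mul_of_pos_left (by linarith) (div_pos hε hB0)
      _ = ε := div_mul_cancel₀ _ hB0.ne'
  refine ⟨(a : Qbar), a.2, fun g => ?_⟩
  obtain ⟨g₀, hg₀, k, s, hs, rfl⟩ := hR g
  have h1 : iq q ((rq q k * g₀ * s) (a : Qbar)) = k (iq q (g₀ (a : Qbar))) := by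
    rw [← iq_rq]
    show iq q (rq q k (g₀ (s (a : Qbar)))) = _
    rw [show s (a : Qbar) = (a : Qbar) from
      (IntermediateField.mem_fixingSubgroup_iff _ _).mp hs _ a.2]
  have h2 : ((cmp x q (rq q k * g₀ * s) : (Om q)ˣ) : Om q) =
      k ((cmp x q g₀ : (Om q)ˣ) : Om q) := by
    rw [mem_JF_iff.mp hx s hs q (rq q k * g₀), cmp_rq]
    rfl
  rw [h1, h2, ← map_sub, norm_gq]
  exact hRbound g₀ hg₀

end

end Fermat.Agent.S55Lib
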