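import Fermat.Agent.S55.G.G1Defs

/-! # S55 G1a (CG1): integral at all places implies integral -/

set_option autoImplicit false
set_option linter.unusedSectionVars false
set_option linter.unusedVariables false
set_option linter.style.haveILetI false

namespace Fermat.Agent.S55Lib

noncomputable section

open Polynomial

theorem CG1_rat_isInt (r : ℚ) (h : ∀ q : Nat.Primes, ‖(r : ℚ_[(q : ℕ)])‖ ≤ 1) :
    ∃ n : ℤ, (n : ℚ) = r := by
  have hden : r.den = 1 := by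
    by_contra hne
    obtain ⟨p, hp, hpd⟩ := Nat.exists_prime_and_dvd hne
    have h1 := h ⟨p, hp⟩
    haveI : Fact p.Prime := ⟨hp⟩
    have h2 : ‖(r : ℚ_[p])‖ ≤ 1 := h1
    rw [Padic.norm_rat_le_one_iff_padicValuation_le_one, Rat.padicValuation_le_one_iff] at h2
    exact h2 hpd
  exact ⟨r.num, (Rat.den_eq_one_iff r).mp hden⟩

theorem CG1_norm_rat (q : Nat.Primes) (r : ℚ) :
    ‖iq q (algebraMap ℚ Qbar r)‖ = ‖(r : ℚ_[(q : ℕ)])‖ := by
  have h1 : ‖((r : ℚ_[(q : ℕ)]) : Om q)‖ = ‖(r : ℚ_[(q : ℕ)])‖ := PadicAlgCl.norm_extends _ _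
  have h2 : ((r : ℚ_[(q : ℕ)]) : Om q) = (r : Om q) := map_ratCast _ r
  rw [← h1, h2, AlgHom.commutes, eq_ratCast]

theorem isIntegral_of_norm_le_one (a : Qbar)
    (h : ∀ (q : Nat.Primes) (g : GQ), ‖iq q (g a)‖ ≤ 1) : IsIntegral ℤ a := by
  haveI : Algebra.IsAlgebraic ℚ Qbar := AlgebraicClosure.isAlgebraic ℚ
  have hint : IsIntegral ℚ a := Algebra.IsIntegral.isIntegral a
  have hmonic : (minpoly ℚ a).Monic := minpoly.monic hint
  have hsplit : ((minpoly ℚ a).map (algebraMap ℚ Qbar)).Splits := IsAlgClosed.splits _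
  have hprod := hsplit.eq_prod_roots_of_monic (hmonic.map _)
  have hroots : ∀ r ∈ ((minpoly ℚ a).map (algebraMap ℚ Qbar)).roots, ∃ g : GQ, g a = r := by
    intro r hr
    have h1 : IsConjRoot ℚ a r := (isConjRoot_iff_mem_minpoly_aroots hint).mpr hr
    obtain ⟨σ, hσ⟩ := isConjRoot_iff_exists_algEquiv.mp h1.symm
    exact ⟨σ, hσ⟩
  have hcoeff : ∀ (q : Nat.Primes) (n : ℕ), ‖((minpoly ℚ a).coeff n : ℚ_[(q : ℕ)])‖ ≤ 1 := by
    intro q n
    have hl : (minpoly ℚ a).map (algebraMap ℚ Qbar) ∈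
        Polynomial.lifts (padicPlace (q : ℕ)).subtype := by
      rw [hprod]
      apply Subsemiring.multiset_prod_mem
      intro p hp
      obtain ⟨r, hr, rfl⟩ := Multiset.mem_map.mp hp
      obtain ⟨g, rfl⟩ := hroots r hr
      have hm : g a ∈ padicPlace (q : ℕ) := h q g
      refine ⟨X - C ⟨g a, hm⟩, ?_⟩
      simp
    rw [Polynomial.lifts_iff_coeff_lifts] at hl
    obtain ⟨y, hy⟩ := hl n
    rw [coeff_map] at hy
    rw [← CG1_norm_rat, ← hy]
    exact y.2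
  have hZ : ∀ n, ∃ k : ℤ, (k : ℚ) = (minpoly ℚ a).coeff n :=
    fun n => CG1_rat_isInt _ (fun q => hcoeff q n)
  have hl : minpoly ℚ a ∈ Polynomial.lifts (Int.castRingHom ℚ) := by
    rw [Polynomial.lifts_iff_coeff_lifts]
    intro n
    obtain ⟨k, hk⟩ := hZ n
    exact ⟨k, hk⟩
  obtain ⟨P, hPmap, -, hPmonic⟩ := Polynomial.lifts_and_natDegree_eq_and_monic hl hmonic
  refine ⟨P, hPmonic, ?_⟩
  have h1 : aeval a (minpoly ℚ a) = 0 := minpoly.aeval ℚ a
  rw [← hPmap, aeval_def, eval₂_map] at h1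
  have h2 : (algebraMap ℚ Qbar).comp (Int.castRingHom ℚ) = algebraMap ℤ Qbar :=
    Subsingleton.elim _ _
  rw [h2] at h1
  exact h1

end

end Fermat.Agent.S55Lib
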