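import Fermat.Agent.S55.G.StrongApprox
import Fermat.Agent.S55.G.Integral
import Fermat.Agent.S55.G.Idl

/-! # S55 G1a (CG3): the norms of an integral idele are attained on its ideal -/

set_option autoImplicit false
set_option linter.unusedSectionVars false
set_option linter.unusedVariables false
set_option linter.style.haveILetI false

namespace Fermat.Agent.S55Lib

noncomputable section

open NumberField

theorem CG3_norm_eq (q : Nat.Primes) {u v : Om q} (h : ‖u - v‖ < ‖v‖) : ‖u‖ = ‖v‖ := by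
  apply le_antisymm
  · have h1 : u = (u - v) + v := by ring
    rw [h1]
    exact (PadicAlgCl.isNonarchimedean _ _ _).trans (max_le h.le le_rfl)
  · by_contra hlt
    push Not at hlt
    have h1 : v = (v - u) + u := by ring
    have h2 : ‖v‖ ≤ max ‖v - u‖ ‖u‖ := by
      conv_lhs => rw [h1]
      exact PadicAlgCl.isNonarchimedean _ _ _
    rw [norm_sub_rev] at h2
    exact absurd h2 (not_le.mpr (max_lt h hlt))

theorem exists_mem_idl_attained (F : IntermediateField ℚ Qbar) [FiniteDimensional ℚ F] (x : JJ)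
    (hx : x ∈ JF F) (hint : ∀ q g, ‖((cmp x q g : (Om q)ˣ) : Om q)‖ ≤ 1)
    (T : Finset Nat.Primes) :
    ∃ a : 𝓞 F, a ∈ idl F x ∧ a ≠ 0 ∧ ∀ q ∈ T, ∀ g,
      ‖iq q (g (((a : 𝓞 F) : F) : Qbar))‖ = ‖((cmp x q g : (Om q)ˣ) : Om q)‖ := by
  classical
  have hfin : {q : Nat.Primes | (x : ∀ q : Nat.Primes, Jq q) q ∉ Uq q}.Finite := x.2.2
  obtain ⟨T', hT'⟩ : ∃ T' : Finset Nat.Primes,
    T' = insert (⟨2, Nat.prime_two⟩ : Nat.Primes) (T ∪ hfin.toFinset) := ⟨_, rfl⟩
  obtain ⟨ε, hε, hb⟩ := exists_lower_bound_cmp x T'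
  obtain ⟨a₀, ha₀F, ha₀, ha₀'⟩ := strong_approx F x hx T' ε hε
  have heq : ∀ q ∈ T', ∀ g, ‖iq q (g a₀)‖ = ‖((cmp x q g : (Om q)ˣ) : Om q)‖ :=
    fun q hq g => CG3_norm_eq q (lt_of_lt_of_le (ha₀ q hq g) (hb q hq g))
  have hle : ∀ q g, ‖iq q (g a₀)‖ ≤ ‖((cmp x q g : (Om q)ˣ) : Om q)‖ := by
    intro q g
    by_cases hq : q ∈ T'
    · exact (heq q hq g).le
    · have h1 : (x : ∀ q : Nat.Primes, Jq q) q ∈ Uq q := by
        by_contra hcon
        apply hq
        rw [hT']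
        exact Finset.mem_insert_of_mem (Finset.mem_union_right _ (hfin.mem_toFinset.mpr hcon))
      have h2 : ‖((cmp x q g : (Om q)ˣ) : Om q)‖ = 1 := h1 g
      rw [h2]
      exact ha₀' q hq g
  have hI : IsIntegral ℤ a₀ := isIntegral_of_norm_le_one a₀ (fun q g => (hle q g).trans (hint q g))
  have hI' : IsIntegral ℤ (⟨a₀, ha₀F⟩ : F) :=
    (isIntegral_algHom_iff (F.val.restrictScalars ℤ) F.val.injective).mp hI
  refine ⟨⟨⟨a₀, ha₀F⟩, hI'⟩, hle, ?_, ?_⟩
  · intro h0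
    have h1 : a₀ = 0 := by
      have h3 : (((⟨⟨a₀, ha₀F⟩, hI'⟩ : 𝓞 F) : F) : Qbar) = (((0 : 𝓞 F) : F) : Qbar) :=
        congrArg (fun y : 𝓞 F => ((y : F) : Qbar)) h0
      have h4 : (((0 : 𝓞 F) : F) : Qbar) = 0 := by simp
      rw [h4] at h3
      exact h3
    have h2 := heq ⟨2, Nat.prime_two⟩ (by rw [hT']; exact Finset.mem_insert_self _ _) 1
    rw [h1, map_zero, map_zero, norm_zero] at h2
    exact (norm_pos_iff.mpr (Units.ne_zero _)).ne h2
  · intro q hq g
    exact heq q (by rw [hT']; exact Finset.mem_insert_of_mem (Finset.mem_union_left _ hq)) g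

end

end Fermat.Agent.S55Lib
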