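import Fermat.Agent.S55.G.G1Defs

/-! # S55 G1a (AP6): integers with prescribed `q`-adic behaviour -/

set_option autoImplicit false
set_option linter.unusedSectionVars false
set_option linter.unusedVariables false
set_option linter.style.haveILetI false

namespace Fermat.Agent.S55Lib

noncomputable section

theorem norm_intCast_Om_le_one (q : Nat.Primes) (e : ℤ) : ‖(e : Om q)‖ ≤ 1 := by
  have h1 : ‖((e : ℚ_[(q : ℕ)]) : Om q)‖ = ‖(e : ℚ_[(q : ℕ)])‖ := PadicAlgCl.norm_extends _ _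
  have h2 : ((e : ℚ_[(q : ℕ)]) : Om q) = (e : Om q) := map_intCast _ e
  rw [← h2, h1]
  exact Padic.norm_int_le_one e

theorem norm_natCast_Om_le_one (q : Nat.Primes) (e : ℕ) : ‖(e : Om q)‖ ≤ 1 := by
  have := norm_intCast_Om_le_one q (e : ℤ)
  simpa using this

theorem norm_q_Om (q : Nat.Primes) : ‖(((q : ℕ) : ℕ) : Om q)‖ = ((q : ℕ) : ℝ)⁻¹ := by
  have h1 : ‖((((q : ℕ) : ℕ) : ℚ_[(q : ℕ)]) : Om q)‖ = ‖(((q : ℕ) : ℕ) : ℚ_[(q : ℕ)])‖ :=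
    PadicAlgCl.norm_extends _ _
  have h2 : ((((q : ℕ) : ℕ) : ℚ_[(q : ℕ)]) : Om q) = (((q : ℕ) : ℕ) : Om q) := map_natCast _ _
  rw [← h2, h1]
  exact Padic.norm_p

theorem norm_natCast_Om_le_of_dvd (q : Nat.Primes) {d n : ℕ} (h : d ∣ n) :
    ‖(n : Om q)‖ ≤ ‖(d : Om q)‖ := by
  obtain ⟨c, rfl⟩ := h
  rw [Nat.cast_mul, norm_mul]
  exact mul_le_of_le_one_right (norm_nonneg _) (norm_natCast_Om_le_one q c)

theorem exists_int_crt (T : Finset Nat.Primes) (m : ℕ) (hm : m ≠ 0) (k : ℕ) (q : Nat.Primes) :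
    ∃ e : ℤ, ‖((e - 1 : ℤ) : Om q)‖ ≤ (((q : ℕ) : ℝ)⁻¹) ^ k ∧
      (∀ q' ∈ T, q' ≠ q → ‖(e : Om q')‖ ≤ ‖(m : Om q')‖ * (((q' : ℕ) : ℝ)⁻¹) ^ k) ∧
      (∀ q', q' ≠ q → ‖(e : Om q')‖ ≤ ‖(m : Om q')‖) := by
  classical
  obtain ⟨P, hP⟩ : ∃ P : ℕ, P = ∏ q' ∈ T, (q' : ℕ) := ⟨_, rfl⟩
  have hP0 : P ≠ 0 := by
    rw [hP]
    exact Finset.prod_ne_zero_iff.mpr (fun q' _ => q'.2.ne_zero)
  obtain ⟨M, hM⟩ : ∃ M : ℕ, M = m * P ^ k := ⟨_, rfl⟩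
  have hM0 : M ≠ 0 := by rw [hM]; exact mul_ne_zero hm (pow_ne_zero _ hP0)
  obtain ⟨Mq, hMq⟩ : ∃ Mq : ℕ, Mq = ordCompl[(q : ℕ)] M := ⟨_, rfl⟩
  have hfac : (q : ℕ) ^ M.factorization (q : ℕ) * Mq = M := by
    rw [hMq]; exact Nat.ordProj_mul_ordCompl_eq_self M q
  have hcop : Nat.Coprime Mq ((q : ℕ) ^ k) := by
    rw [hMq]
    exact (Nat.Coprime.pow_left k (Nat.coprime_ordCompl q.2 hM0)).symm
  obtain ⟨a, b, hab⟩ := Nat.isCoprime_iff_coprime.mpr hcop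
  have hMq' : ∀ q' : Nat.Primes, q' ≠ q → ‖(Mq : Om q')‖ = ‖(M : Om q')‖ := by
    intro q' hq'
    have h1 : ¬ (q' : ℕ) ∣ (q : ℕ) := by
      intro hd
      exact hq' (Subtype.ext ((Nat.prime_dvd_prime_iff_eq q'.2 q.2).mp hd))
    rw [← hfac, Nat.cast_mul, norm_mul, Nat.cast_pow, norm_pow, norm_natCast_Om q' h1, one_pow,
      one_mul]
  have he : ∀ q' : Nat.Primes, q' ≠ q → ‖((a * (Mq : ℤ) : ℤ) : Om q')‖ ≤ ‖(M : Om q')‖ := by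
    intro q' hq'
    rw [Int.cast_mul, norm_mul, Int.cast_natCast, hMq' q' hq']
    exact mul_le_of_le_one_left (norm_nonneg _) (norm_intCast_Om_le_one q' a)
  refine ⟨a * (Mq : ℤ), ?_, ?_, ?_⟩
  · have h1 : a * (Mq : ℤ) - 1 = -(b * (((q : ℕ) ^ k : ℕ) : ℤ)) := by linarith
    rw [h1, Int.cast_neg, norm_neg, Int.cast_mul, norm_mul, Int.cast_natCast, Nat.cast_pow,
      norm_pow, norm_q_Om]
    exact mul_le_of_le_one_left (pow_nonneg (inv_nonneg.mpr (Nat.cast_nonneg _)) _)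
      (norm_intCast_Om_le_one q b)
  · intro q' hq'T hq'
    refine (he q' hq').trans ?_
    rw [hM, Nat.cast_mul, norm_mul, Nat.cast_pow, norm_pow]
    refine mul_le_mul_of_nonneg_left ?_ (norm_nonneg _)
    refine pow_le_pow_left₀ (norm_nonneg _) ?_ k
    rw [← norm_q_Om]
    exact norm_natCast_Om_le_of_dvd q' (by rw [hP]; exact Finset.dvd_prod_of_mem _ hq'T)
  · intro q' hq'
    refine (he q' hq').trans ?_
    exact norm_natCast_Om_le_of_dvd q' (by rw [hM]; exact Dvd.intro _ rfl)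

end

end Fermat.Agent.S55Lib
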