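import Fermat.Agent.S55.G.Reps
import Fermat.Agent.S55.G.CRT

/-! # S55 G1a (AP5): bounds for the components of an idele -/

set_option autoImplicit false
set_option linter.unusedSectionVars false
set_option linter.unusedVariables false
set_option linter.style.haveILetI false

namespace Fermat.Agent.S55Lib

noncomputable section

theorem exists_lower_bound_cmp (x : JJ) (T : Finset Nat.Primes) :
    ∃ ε : ℝ, 0 < ε ∧ ∀ q ∈ T, ∀ g, ε ≤ ‖((cmp x q g : (Om q)ˣ) : Om q)‖ := by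
  classical
  obtain ⟨F, hF, -, hx⟩ := exists_level_JJ x
  have hR : ∀ q : Nat.Primes, ∃ R : Finset GQ, ∀ g, ∃ g₀ ∈ R, SamePlace q F g₀ g :=
    fun q => finite_places F q
  choose R hR using hR
  obtain ⟨B, hB⟩ : ∃ B : ℝ, B = 1 + ∑ q ∈ T, ∑ g ∈ R q, ‖((cmp x q g : (Om q)ˣ) : Om q)‖⁻¹ :=
    ⟨_, rfl⟩
  have hnn : ∀ q ∈ T, 0 ≤ ∑ g ∈ R q, ‖((cmp x q g : (Om q)ˣ) : Om q)‖⁻¹ :=
    fun q _ => Finset.sum_nonneg (fun g _ => inv_nonneg.mpr (norm_nonneg _))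
  have hB0 : 0 < B := by
    rw [hB]
    have := Finset.sum_nonneg hnn
    linarith
  refine ⟨B⁻¹, inv_pos.mpr hB0, fun q hq g => ?_⟩
  obtain ⟨g₀, hg₀, hs⟩ := hR q g
  rw [hs.norm_cmp_eq hx]
  have hpos : 0 < ‖((cmp x q g₀ : (Om q)ˣ) : Om q)‖ := norm_pos_iff.mpr (Units.ne_zero _)
  have h1 : ‖((cmp x q g₀ : (Om q)ˣ) : Om q)‖⁻¹ ≤
      ∑ g ∈ R q, ‖((cmp x q g : (Om q)ˣ) : Om q)‖⁻¹ :=
    Finset.single_le_sum (f := fun g => ‖((cmp x q g : (Om q)ˣ) : Om q)‖⁻¹)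
      (fun g _ => inv_nonneg.mpr (norm_nonneg _)) hg₀
  have h2 : ∑ g ∈ R q, ‖((cmp x q g : (Om q)ˣ) : Om q)‖⁻¹ ≤
      ∑ q ∈ T, ∑ g ∈ R q, ‖((cmp x q g : (Om q)ˣ) : Om q)‖⁻¹ :=
    Finset.single_le_sum (f := fun q => ∑ g ∈ R q, ‖((cmp x q g : (Om q)ˣ) : Om q)‖⁻¹) hnn hq
  have h3 : ‖((cmp x q g₀ : (Om q)ˣ) : Om q)‖⁻¹ ≤ B := by rw [hB]; linarith
  exact (inv_le_comm₀ hB0 hpos).mpr h3

/-- clearing denominators of an idele -/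
theorem exists_nat_scale (x : JJ) : ∃ m : ℕ, m ≠ 0 ∧
    ∀ q g, ‖(m : Om q)‖ * ‖((cmp x q g : (Om q)ˣ) : Om q)‖ ≤ 1 := by
  classical
  have hfin : {q : Nat.Primes | (x : ∀ q : Nat.Primes, Jq q) q ∉ Uq q}.Finite := x.2.2
  obtain ⟨ε, hε, hb⟩ := exists_lower_bound_cmp x⁻¹ hfin.toFinset
  obtain ⟨k, hk⟩ := exists_pow_lt_of_lt_one hε (by norm_num : (1 / 2 : ℝ) < 1)
  obtain ⟨P, hP⟩ : ∃ P : ℕ, P = ∏ q' ∈ hfin.toFinset, (q' : ℕ) := ⟨_, rfl⟩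
  have hP0 : P ≠ 0 := by
    rw [hP]
    exact Finset.prod_ne_zero_iff.mpr (fun q' _ => q'.2.ne_zero)
  refine ⟨P ^ k, pow_ne_zero _ hP0, fun q g => ?_⟩
  by_cases hq : q ∈ hfin.toFinset
  · have h1 := hb q hq g
    rw [cmp_inv, Units.val_inv_eq_inv_val, norm_inv] at h1
    have hpos : 0 < ‖((cmp x q g : (Om q)ˣ) : Om q)‖ := norm_pos_iff.mpr (Units.ne_zero _)
    have h2 : ‖(P : Om q)‖ ≤ 1 / 2 := by
      have h3 : ‖(P : Om q)‖ ≤ ‖(((q : ℕ) : ℕ) : Om q)‖ :=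
        norm_natCast_Om_le_of_dvd q (by rw [hP]; exact Finset.dvd_prod_of_mem _ hq)
      rw [norm_q_Om] at h3
      refine h3.trans ?_
      rw [one_div]
      have h4 : (2 : ℝ) ≤ ((q : ℕ) : ℝ) := by exact_mod_cast q.2.two_le
      exact inv_anti₀ (by norm_num) h4
    have h5 : ‖((P ^ k : ℕ) : Om q)‖ ≤ ε := by
      rw [Nat.cast_pow, norm_pow]
      exact (pow_le_pow_left₀ (norm_nonneg _) h2 k).trans hk.le
    calc ‖((P ^ k : ℕ) : Om q)‖ * ‖((cmp x q g : (Om q)ˣ) : Om q)‖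
        ≤ ‖((cmp x q g : (Om q)ˣ) : Om q)‖⁻¹ * ‖((cmp x q g : (Om q)ˣ) : Om q)‖ :=
          mul_le_mul_of_nonneg_right (h5.trans h1) hpos.le
      _ = 1 := inv_mul_cancel₀ hpos.ne'
  · have h1 : (x : ∀ q : Nat.Primes, Jq q) q ∈ Uq q := by
      by_contra hcon
      exact hq (hfin.mem_toFinset.mpr hcon)
    have h2 : ‖((cmp x q g : (Om q)ˣ) : Om q)‖ = 1 := h1 g
    rw [h2, mul_one]
    exact norm_natCast_Om_le_one q _

end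

end Fermat.Agent.S55Lib
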