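import Fermat.Agent.S55.G.G1Defs

/-! # S55 G1a (AP1): embeddings of number fields extend to `G_ℚ` -/

set_option autoImplicit false
set_option linter.unusedSectionVars false
set_option linter.unusedVariables false
set_option linter.style.haveILetI false

namespace Fermat.Agent.S55Lib

noncomputable section

theorem exists_GQ_extend (F : IntermediateField ℚ Qbar) (σ : F →ₐ[ℚ] Qbar) :
    ∃ g : GQ, ∀ a : F, g (a : Qbar) = σ a := by
  haveI : Algebra.IsAlgebraic ℚ Qbar := AlgebraicClosure.isAlgebraic ℚ
  obtain ⟨φ, hφ⟩ := IntermediateField.exists_algHom_of_splits (F := ℚ) (E := Qbar) (K := Qbar)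
    (fun s => ⟨Algebra.IsIntegral.isIntegral s, IsAlgClosed.splits _⟩) σ
  refine ⟨AlgEquiv.ofBijective φ (Algebra.IsAlgebraic.algHom_bijective φ), fun a => ?_⟩
  exact DFunLike.congr_fun hφ a

end

end Fermat.Agent.S55Lib
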