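import Fermat.Agent.S55.G.Ideles

/-! # S55 chapter G1: definitions of the root statements (from helper4's RootG1 skeleton) -/

set_option autoImplicit false
set_option linter.unusedSectionVars false
set_option linter.unusedVariables false

namespace Fermat.Agent.S55Lib

noncomputable section

open groupCohomology

/-- units of `ℚ̄` lying in `F` -/
def FX (F : IntermediateField ℚ Qbar) : Subgroup Qbarˣ where
  carrier := {a | (a : Qbar) ∈ F}
  one_mem' := by simp [one_mem]
  mul_mem' := fun {a b} ha hb => by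
    simp only [Set.mem_ofPred_eq, Units.val_mul] at ha hb ⊢
    exact mul_mem ha hb
  inv_mem' := fun {a} ha => by
    simp only [Set.mem_ofPred_eq, Units.val_inv_eq_inv_val] at ha ⊢
    exact inv_mem ha

/-- `F` contains the `p`-th roots of unity -/
def HasMu (p : ℕ) (F : IntermediateField ℚ Qbar) : Prop := ∀ z : Qbar, z ^ p = 1 → z ∈ F

/-- `L/F` is a cyclic layer of degree `p`, with generator `σ` -/
structure IsLayer (p : ℕ) (F L : IntermediateField ℚ Qbar) (σ : GQ) : Prop where
  finF : FiniteDimensional ℚ F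
  finL : FiniteDimensional ℚ L
  le : F ≤ L
  normal : ∀ s ∈ F.fixingSubgroup, ∀ x ∈ L, s x ∈ L
  index : (L.fixingSubgroup).relIndex F.fixingSubgroup = p
  mem : σ ∈ F.fixingSubgroup
  not_mem : σ ∉ L.fixingSubgroup

/-- same place: `g' ∈ r(G_q) g U_F` -/
def SamePlace (q : Nat.Primes) (F : IntermediateField ℚ Qbar) (g g' : GQ) : Prop :=
  ∃ (h : Gq q), ∃ s ∈ F.fixingSubgroup, g' = rq q h * g * s

/-- the `T`-units of `F` -/
def EFT (F : IntermediateField ℚ Qbar) (T : Finset Nat.Primes) : Subgroup Qbarˣ where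
  carrier := {a | (a : Qbar) ∈ F ∧ ∀ q ∉ T, ∀ g : GQ, ‖iq q (g (a : Qbar))‖ = 1}
  one_mem' := ⟨by simp [one_mem], fun q _ g => by simp⟩
  mul_mem' := fun {a b} ha hb => ⟨by
      simp only [Units.val_mul]; exact mul_mem ha.1 hb.1, fun q hq g => by
      simp only [Units.val_mul, map_mul, norm_mul, ha.2 q hq g, hb.2 q hq g, mul_one]⟩
  inv_mem' := fun {a} ha => ⟨by
      simp only [Units.val_inv_eq_inv_val]; exact inv_mem ha.1, fun q hq g => by
      simp only [Units.val_inv_eq_inv_val, map_inv₀, norm_inv, ha.2 q hq g, inv_one]⟩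

/-- number of places of `F` above `T`, as `log_p |J_T(F)[p]|` when `μ_p ⊆ F`: we use the honest
count through a set of representatives -/
def IsPlaceCount (F : IntermediateField ℚ Qbar) (T : Finset Nat.Primes) (t : ℕ) : Prop :=
  ∃ R : ∀ q : Nat.Primes, Finset GQ,
    (∀ q g, ∃ g₀ ∈ R q, SamePlace q F g₀ g) ∧
    (∀ q, ∀ g ∈ R q, ∀ g' ∈ R q, SamePlace q F g g' → g = g') ∧
    t = ∑ q ∈ T, (R q).card

end

end Fermat.Agent.S55Lib
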