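import Fermat.Agent.S55.G.Extend

/-! # S55 G1a (AP2): independence of the embeddings (nonzero discriminant) -/

set_option autoImplicit false
set_option linter.unusedSectionVars false
set_option linter.unusedVariables false
set_option linter.style.haveILetI false

namespace Fermat.Agent.S55Lib

noncomputable section

open Matrix

theorem indep_embeddings (F : IntermediateField ℚ Qbar) [FiniteDimensional ℚ F] (q : Nat.Primes)
    {ι : Type} [Fintype ι] (b : Module.Basis ι ℚ F) (c : ι → Om q)
    (h : ∀ g : GQ, ∑ j, c j * iq q (g ((b j : F) : Qbar)) = 0) : c = 0 := by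
  classical
  have hcard : Fintype.card ι = Fintype.card (F →ₐ[ℚ] Qbar) := by
    rw [AlgHom.card, Module.finrank_eq_card_basis b]
  let e : ι ≃ (F →ₐ[ℚ] Qbar) := Fintype.equivOfCardEq hcard
  have hdisc : Algebra.discr ℚ b ≠ 0 := Algebra.discr_not_zero_of_basis ℚ b
  have hdet : (Algebra.embeddingsMatrixReindex ℚ Qbar b e).det ≠ 0 := by
    intro h0
    have h1 := Algebra.discr_eq_det_embeddingsMatrixReindex_pow_two ℚ Qbar b e
    rw [h0, zero_pow two_ne_zero] at h1
    exact hdisc ((map_eq_zero _).mp h1)
  let M' : Matrix ι ι (Om q) := (Algebra.embeddingsMatrixReindex ℚ Qbar b e).map (iq q)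
  have hdet' : M'.det ≠ 0 := by
    have h1 : M'.det = iq q (Algebra.embeddingsMatrixReindex ℚ Qbar b e).det :=
      ((iq q).toRingHom.map_det _).symm
    rw [h1]
    exact (map_ne_zero _).mpr hdet
  apply Matrix.eq_zero_of_vecMul_eq_zero hdet'
  ext j
  obtain ⟨g, hg⟩ := exists_GQ_extend F (e j)
  have h1 := h g
  rw [Pi.zero_apply, ← h1]
  show ∑ i, c i * M' i j = _
  refine Finset.sum_congr rfl (fun i _ => ?_)
  congr 1
  show iq q ((e j) (b i)) = _
  rw [hg]

end

end Fermat.Agent.S55Lib
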