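import Fermat.Agent.S55.G.Indep
import Fermat.Agent.S55.G.SumDeg
import Fermat.Agent.S55.G.LocFin

/-! # S55 G1a (AP3): `F ⊗ ℚ_q → ∏_w F_w` is onto (dimension count) -/

set_option autoImplicit false
set_option linter.unusedSectionVars false
set_option linter.unusedVariables false
set_option linter.style.haveILetI false

namespace Fermat.Agent.S55Lib

noncomputable section

theorem iq_mem_locF (q : Nat.Primes) (g : GQ) (F : IntermediateField ℚ Qbar) {a : Qbar}
    (ha : a ∈ F) : iq q (g a) ∈ locF q g F :=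
  IntermediateField.subset_adjoin _ _ ⟨a, ha, rfl⟩

theorem exists_coeff_local (F : IntermediateField ℚ Qbar) [FiniteDimensional ℚ F] (q : Nat.Primes)
    {ι : Type} [Fintype ι] (b : Module.Basis ι ℚ F)
    (R : Finset GQ) (hR : ∀ g, ∃ g₀ ∈ R, SamePlace q F g₀ g)
    (hR' : ∀ g ∈ R, ∀ g' ∈ R, SamePlace q F g g' → g = g')
    (z : GQ → Om q) (hz : ∀ g ∈ R, z g ∈ locF q g F) :
    ∃ c : ι → ℚ_[(q : ℕ)], ∀ g ∈ R,
      ∑ j, algebraMap ℚ_[(q : ℕ)] (Om q) (c j) * iq q (g ((b j : F) : Qbar)) = z g := by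
  classical
  let ψ : ∀ g : R, (ι → ℚ_[(q : ℕ)]) →ₗ[ℚ_[(q : ℕ)]] locF q (g : GQ) F := fun g =>
    ∑ j, (LinearMap.proj j : (ι → ℚ_[(q : ℕ)]) →ₗ[ℚ_[(q : ℕ)]] ℚ_[(q : ℕ)]).smulRight
      (⟨iq q ((g : GQ) ((b j : F) : Qbar)), iq_mem_locF q g F (b j).2⟩ : locF q (g : GQ) F)
  have hψ : ∀ (g : R) (c : ι → ℚ_[(q : ℕ)]), ((ψ g c : locF q (g : GQ) F) : Om q) =
      ∑ j, algebraMap ℚ_[(q : ℕ)] (Om q) (c j) * iq q ((g : GQ) ((b j : F) : Qbar)) := by
    intro g c
    simp only [ψ, LinearMap.sum_apply, LinearMap.smulRight_apply, LinearMap.proj_apply]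
    rw [AddSubmonoidClass.coe_finsetSum]
    refine Finset.sum_congr rfl (fun j _ => ?_)
    rw [IntermediateField.coe_smul, Algebra.smul_def]
  let Ψ : (ι → ℚ_[(q : ℕ)]) →ₗ[ℚ_[(q : ℕ)]] (∀ g : R, locF q (g : GQ) F) := LinearMap.pi ψ
  have hrank : Module.finrank ℚ_[(q : ℕ)] (ι → ℚ_[(q : ℕ)]) =
      Module.finrank ℚ_[(q : ℕ)] (∀ g : R, locF q (g : GQ) F) := by
    have h1 : Module.finrank ℚ_[(q : ℕ)] (ι → ℚ_[(q : ℕ)]) = Fintype.card ι :=
      Module.finrank_fintype_fun_eq_card _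
    have h2 : Module.finrank ℚ_[(q : ℕ)] (∀ g : R, locF q (g : GQ) F) =
        ∑ g : R, Module.finrank ℚ_[(q : ℕ)] (locF q (g : GQ) F) := Module.finrank_pi_fintype _
    have h3 : ∑ g : R, Module.finrank ℚ_[(q : ℕ)] (locF q (g : GQ) F) =
        ∑ g ∈ R, Module.finrank ℚ_[(q : ℕ)] (locF q g F) :=
      Finset.sum_coe_sort R (fun g => Module.finrank ℚ_[(q : ℕ)] (locF q g F))
    have h4 := sum_local_degrees F q R hR hR'
    have h5 : Module.finrank ℚ F = Fintype.card ι := Module.finrank_eq_card_basis b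
    exact h1.trans (h5.symm.trans (h4.symm.trans (h3.symm.trans h2.symm)))
  have hinj : Function.Injective Ψ := by
    rw [injective_iff_map_eq_zero]
    intro c hc
    have h0 : ∀ g : R, ∑ j, algebraMap ℚ_[(q : ℕ)] (Om q) (c j) *
        iq q ((g : GQ) ((b j : F) : Qbar)) = 0 := by
      intro g
      rw [← hψ]
      have : ψ g c = 0 := congrFun hc g
      rw [this]
      rfl
    have h1 : (fun j => algebraMap ℚ_[(q : ℕ)] (Om q) (c j)) = 0 := by
      apply indep_embeddings F q b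
      intro g
      obtain ⟨g₀, hg₀, k, s, hs, rfl⟩ := hR g
      rw [IntermediateField.mem_fixingSubgroup_iff] at hs
      have h2 : ∀ j, iq q ((rq q k * g₀ * s) ((b j : F) : Qbar)) =
          k (iq q (g₀ ((b j : F) : Qbar))) := by
        intro j
        rw [← iq_rq]
        show iq q (rq q k (g₀ (s ((b j : F) : Qbar)))) = _
        rw [show s ((b j : F) : Qbar) = ((b j : F) : Qbar) from hs _ (b j).2]
      have h3 := congrArg k (h0 ⟨g₀, hg₀⟩)
      rw [map_zero, map_sum] at h3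
      rw [← h3]
      refine Finset.sum_congr rfl (fun j _ => ?_)
      rw [h2, map_mul, AlgEquiv.commutes]
    ext j
    have := congrFun h1 j
    exact (map_eq_zero _).mp this
  have hsurj : Function.Surjective Ψ :=
    (LinearMap.injective_iff_surjective_of_finrank_eq_finrank hrank).mp hinj
  obtain ⟨c, hc⟩ := hsurj (fun g => ⟨z g, hz g g.2⟩)
  refine ⟨c, fun g hg => ?_⟩
  have h1 : ψ ⟨g, hg⟩ c = ⟨z g, hz g hg⟩ := congrFun hc ⟨g, hg⟩
  have h2 := hψ ⟨g, hg⟩ c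
  rw [h1] at h2
  exact h2.symm

end

end Fermat.Agent.S55Lib
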