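import Fermat.Agent.S55.H.QFree

/-! # S55 G1a (TU5): the `q_p`-index of a group with finitely many discrete valuations -/

set_option autoImplicit false
set_option linter.unusedSectionVars false
set_option linter.unusedVariables false
set_option linter.style.haveILetI false

namespace Fermat.Agent.S55Lib

noncomputable section

theorem mulp_apply (p : ℕ) {A : Type} [AddCommGroup A] (a : A) : mulp p A a = p • a := rfl

/-- invariance of `q_p` under isomorphisms -/
theorem qInd_mulp_congr (p : ℕ) {A B : Type} [AddCommGroup A] [AddCommGroup B] (e : A ≃+ B)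
    (h : QFin (mulp p A)) : QFin (mulp p B) ∧ qInd (mulp p B) = qInd (mulp p A) := by
  have h1 := qInd_ses (A := B) (A' := A) (A'' := PUnit) e.toAddMonoidHom 0 e.injective
    (fun _ => ⟨0, rfl⟩) (fun a => ⟨fun _ => ⟨e.symm a, e.apply_symm_apply a⟩, fun _ => rfl⟩)
    (mulp p A) (mulp p B) (mulp p PUnit)
    (fun a => by
      show e (p • a) = p • e a
      exact map_nsmul e p a)
    (fun a => rfl) h (qInd_of_finite _).1
  rw [(qInd_of_finite (mulp p PUnit)).2, mul_one] at h1
  exact h1

theorem qInd_of_vals (p : ℕ) [Fact p.Prime] {E : Type} [CommGroup E] {W : Type} [Fintype W]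
    (v : E →* (W → Multiplicative ℤ))
    (hv : ∀ w, ∃ a : E, v a w ≠ 1 ∧ ∀ w' ≠ w, v a w' = 1)
    (h0 : QFin (mulp p (Additive v.ker))) :
    QFin (mulp p (Additive E)) ∧
      qInd (mulp p (Additive E)) = qInd (mulp p (Additive v.ker)) * (p : ℚ) ^ Fintype.card W := by
  classical
  let va : Additive E →+ (W → ℤ) :=
    { toFun := fun a w => Multiplicative.toAdd (v (Additive.toMul a) w)
      map_zero' := by
        ext w
        show Multiplicative.toAdd (v 1 w) = 0
        rw [map_one]; rfl
      map_add' := fun a b => by
        ext w
        show Multiplicative.toAdd (v (Additive.toMul a * Additive.toMul b) w) = _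
        rw [map_mul]; rfl }
  have hva : ∀ a w, va a w = Multiplicative.toAdd (v (Additive.toMul a) w) := fun a w => rfl
  let Λ : Submodule ℤ (W → ℤ) := LinearMap.range va.toIntLinearMap
  let π : Additive E →+ Λ := (va.toIntLinearMap.rangeRestrict).toAddMonoidHom
  have hπ : ∀ a, ((π a : Λ) : W → ℤ) = va a := fun a => rfl
  have hπs : Function.Surjective π := LinearMap.surjective_rangeRestrict _
  let i : Additive v.ker →+ Additive E := MonoidHom.toAdditive v.ker.subtype
  have hi : Function.Injective i := fun a b h => Subtype.ext h
  have hex : ∀ a, π a = 0 ↔ ∃ a', i a' = a := by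
    intro a
    constructor
    · intro h
      have h1 : va a = 0 := by rw [← hπ, h]; rfl
      have h2 : Additive.toMul a ∈ v.ker := by
        rw [MonoidHom.mem_ker]
        ext w
        have := congrFun h1 w
        rw [hva] at this
        exact this
      exact ⟨Additive.ofMul ⟨Additive.toMul a, h2⟩, rfl⟩
    · rintro ⟨a', rfl⟩
      apply Subtype.ext
      rw [hπ]
      ext w
      rw [hva]
      have h2 : v ((Additive.toMul a' : v.ker) : E) = 1 := (Additive.toMul a').2
      show Multiplicative.toAdd (v ((Additive.toMul a' : v.ker) : E) w) = 0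
      rw [h2]; rfl
  have hrank : Module.finrank ℤ Λ = Fintype.card W := by
    apply le_antisymm
    · have h1 := Submodule.finrank_le Λ
      rwa [Module.finrank_fintype_fun_eq_card] at h1
    · choose a ha1 ha2 using hv
      let b : W → Λ := fun w => π (Additive.ofMul (a w))
      have hb : LinearIndependent ℤ b := by
        rw [Fintype.linearIndependent_iff]
        intro c hc w
        have h1 := congrArg (fun x : Λ => (x : W → ℤ) w) hc
        simp only [Submodule.coe_sum, Submodule.coe_smul, Finset.sum_apply, Pi.smul_apply,
          Submodule.coe_zero, Pi.zero_apply] at h1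
        rw [Finset.sum_eq_single w] at h1
        · have h2 : ((b w : Λ) : W → ℤ) w ≠ 0 := fun h => ha1 w h
          rcases mul_eq_zero.mp h1 with h | h
          · exact h
          · exact absurd h h2
        · intro w' _ hw'
          have h2 : ((b w' : Λ) : W → ℤ) w = 0 := ha2 w' w hw'.symm
          rw [h2, smul_zero]
        · intro h
          exact absurd (Finset.mem_univ w) h
      exact hb.fintype_card_le_finrank
  have hΛ := qInd_mulp_fg (A := Λ) p
  have h1 := qInd_ses i π hi hπs hex (mulp p (Additive v.ker)) (mulp p (Additive E)) (mulp p Λ)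
    (fun a => map_nsmul i p a) (fun a => map_nsmul π p a) h0 hΛ.1
  rw [hΛ.2, hrank] at h1
  exact h1

end

end Fermat.Agent.S55Lib
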