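import Fermat.Agent.S55.G.ApproxQ
import Fermat.Agent.S55.G.Bounds

/-! # S55 G1a (AP7): strong approximation -/

set_option autoImplicit false
set_option linter.unusedSectionVars false
set_option linter.unusedVariables false
set_option linter.style.haveILetI false

namespace Fermat.Agent.S55Lib

noncomputable section

/-- a common denominator -/
theorem AP7_exists_denominator (α : Nat.Primes → Qbar) (T : Finset Nat.Primes) :
    ∃ m : ℕ, m ≠ 0 ∧ ∀ q ∈ T, ∀ (q' : Nat.Primes) (g : GQ),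
      ‖(m : Om q')‖ * ‖iq q' (g (α q))‖ ≤ 1 := by
  classical
  haveI : Algebra.IsAlgebraic ℚ Qbar := AlgebraicClosure.isAlgebraic ℚ
  have h : ∀ q : Nat.Primes, ∃ y : ℤ, y ≠ 0 ∧ IsIntegral ℤ (y • α q) := by
    intro q
    have halg : IsAlgebraic ℤ (α q) :=
      (IsFractionRing.isAlgebraic_iff ℤ ℚ Qbar).mpr (Algebra.IsAlgebraic.isAlgebraic (α q))
    exact halg.exists_integral_multiple
  choose y hy0 hy using h
  refine ⟨∏ q ∈ T, (y q).natAbs, Finset.prod_ne_zero_iff.mpr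
    (fun q _ => Int.natAbs_ne_zero.mpr (hy0 q)), fun q hq q' g => ?_⟩
  have h1 : IsIntegral ℤ (g (y q • α q)) := (hy q).map (g.restrictScalars ℤ)
  have h2 := norm_iq_le_one_of_isIntegral q' h1
  have h3 : iq q' (g (y q • α q)) = (y q : Om q') * iq q' (g (α q)) := by
    rw [zsmul_eq_mul, map_mul, map_mul, map_intCast, map_intCast]
  rw [h3, norm_mul] at h2
  have h4 : ‖(((y q).natAbs : ℕ) : Om q')‖ = ‖(y q : Om q')‖ := by
    rcases Int.natAbs_eq (y q) with h | h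
    · conv_rhs => rw [h]
      simp
    · conv_rhs => rw [h]
      simp
  have h5 : ‖((∏ q ∈ T, (y q).natAbs : ℕ) : Om q')‖ ≤ ‖(y q : Om q')‖ := by
    rw [← h4]
    exact norm_natCast_Om_le_of_dvd q' (Finset.dvd_prod_of_mem _ hq)
  exact (mul_le_mul_of_nonneg_right h5 (norm_nonneg _)).trans h2

theorem AP7_half (q : Nat.Primes) (k : ℕ) : (((q : ℕ) : ℝ)⁻¹) ^ k ≤ (1 / 2 : ℝ) ^ k := by
  refine pow_le_pow_left₀ (inv_nonneg.mpr (Nat.cast_nonneg _)) ?_ k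
  rw [one_div]
  have h4 : (2 : ℝ) ≤ ((q : ℕ) : ℝ) := by exact_mod_cast q.2.two_le
  exact inv_anti₀ (by norm_num) h4

theorem strong_approx (F : IntermediateField ℚ Qbar) [FiniteDimensional ℚ F] (x : JJ)
    (hx : x ∈ JF F) (T : Finset Nat.Primes) (ε : ℝ) (hε : 0 < ε) :
    ∃ a ∈ F, (∀ q ∈ T, ∀ g : GQ, ‖iq q (g a) - ((cmp x q g : (Om q)ˣ) : Om q)‖ < ε) ∧
      ∀ q ∉ T, ∀ g : GQ, ‖iq q (g a)‖ ≤ 1 := by
  classical
  have h := fun q : Nat.Primes => approx_at_q F x hx q ε hε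
  choose α hαF hα using h
  obtain ⟨m, hm0, hm⟩ := AP7_exists_denominator α T
  have hmQ : (m : Qbar) ≠ 0 := by exact_mod_cast hm0
  obtain ⟨δ, hδ, hδm⟩ := exists_lower_bound_cmp (diag (Units.mk0 (m : Qbar) hmQ)) T
  have hδm' : ∀ q ∈ T, δ ≤ ‖(m : Om q)‖ := by
    intro q hq
    have := hδm q hq 1
    rw [diag_comp] at this
    simpa using this
  obtain ⟨k, hk⟩ := exists_pow_lt_of_lt_one (lt_min (mul_pos hε hδ) hε)
    (by norm_num : (1 / 2 : ℝ) < 1)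
  have hk1 : (1 / 2 : ℝ) ^ k < ε * δ := lt_of_lt_of_le hk (min_le_left _ _)
  have hk2 : (1 / 2 : ℝ) ^ k < ε := lt_of_lt_of_le hk (min_le_right _ _)
  have he := fun q : Nat.Primes => exists_int_crt T m hm0 k q
  choose e he1 he2 he3 using he
  have hφ : ∀ (q' : Nat.Primes) (g : GQ) (S : Finset Nat.Primes),
      iq q' (g (∑ q ∈ S, (e q : Qbar) * α q)) = ∑ q ∈ S, (e q : Om q') * iq q' (g (α q)) := by
    intro q' g S
    rw [map_sum, map_sum]
    refine Finset.sum_congr rfl (fun q _ => ?_)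
    rw [map_mul, map_mul, map_intCast, map_intCast]
  refine ⟨∑ q ∈ T, (e q : Qbar) * α q, ?_, ?_, ?_⟩
  · exact sum_mem (fun q _ => mul_mem (intCast_mem F _) (hαF q))
  · intro q₀ hq₀ g
    have hmpos : 0 < ‖(m : Om q₀)‖ := lt_of_lt_of_le hδ (hδm' q₀ hq₀)
    rw [hφ, ← Finset.add_sum_erase T _ hq₀]
    have hsplit : (e q₀ : Om q₀) * iq q₀ (g (α q₀)) +
        ∑ q ∈ T.erase q₀, (e q : Om q₀) * iq q₀ (g (α q)) - ((cmp x q₀ g : (Om q₀)ˣ) : Om q₀) =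
        (((e q₀ - 1 : ℤ) : Om q₀) * iq q₀ (g (α q₀)) +
          (iq q₀ (g (α q₀)) - ((cmp x q₀ g : (Om q₀)ˣ) : Om q₀))) +
        ∑ q ∈ T.erase q₀, (e q : Om q₀) * iq q₀ (g (α q)) := by
      push_cast
      ring
    rw [hsplit]
    have hA : ‖((e q₀ - 1 : ℤ) : Om q₀) * iq q₀ (g (α q₀))‖ < ε := by
      rw [norm_mul]
      have h1 : ‖iq q₀ (g (α q₀))‖ ≤ 1 / δ := by
        rw [le_div_iff₀ hδ, mul_comm]
        exact (mul_le_mul_of_nonneg_right (hδm' q₀ hq₀) (norm_nonneg _)).trans (hm q₀ hq₀ q₀ g)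
      have h2 : ‖((e q₀ - 1 : ℤ) : Om q₀)‖ ≤ (1 / 2 : ℝ) ^ k := (he1 q₀).trans (AP7_half q₀ k)
      calc ‖((e q₀ - 1 : ℤ) : Om q₀)‖ * ‖iq q₀ (g (α q₀))‖
          ≤ (1 / 2 : ℝ) ^ k * (1 / δ) := mul_le_mul h2 h1 (norm_nonneg _) (by positivity)
        _ < ε * δ * (1 / δ) := mul_lt_mul_of_pos_right hk1 (by positivity)
        _ = ε := by field_simp
    have hB : ‖iq q₀ (g (α q₀)) - ((cmp x q₀ g : (Om q₀)ˣ) : Om q₀)‖ < ε := hα q₀ g
    have hC : ‖∑ q ∈ T.erase q₀, (e q : Om q₀) * iq q₀ (g (α q))‖ < ε := by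
      refine lt_of_le_of_lt (IsUltrametricDist.norm_sum_le_of_forall_le_of_nonneg
        (C := (1 / 2 : ℝ) ^ k) (by positivity) ?_) hk2
      intro q hq
      have hqT : q ∈ T := Finset.mem_of_mem_erase hq
      have hne : q₀ ≠ q := (Finset.ne_of_mem_erase hq).symm
      rw [norm_mul]
      calc ‖(e q : Om q₀)‖ * ‖iq q₀ (g (α q))‖
          ≤ (‖(m : Om q₀)‖ * (((q₀ : ℕ) : ℝ)⁻¹) ^ k) * ‖iq q₀ (g (α q))‖ :=
            mul_le_mul_of_nonneg_right (he2 q q₀ hq₀ hne) (norm_nonneg _)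
        _ = (‖(m : Om q₀)‖ * ‖iq q₀ (g (α q))‖) * (((q₀ : ℕ) : ℝ)⁻¹) ^ k := by ring
        _ ≤ 1 * (((q₀ : ℕ) : ℝ)⁻¹) ^ k :=
            mul_le_mul_of_nonneg_right (hm q hqT q₀ g)
              (pow_nonneg (inv_nonneg.mpr (Nat.cast_nonneg _)) _)
        _ = (((q₀ : ℕ) : ℝ)⁻¹) ^ k := one_mul _
        _ ≤ _ := AP7_half q₀ k
    refine lt_of_le_of_lt (PadicAlgCl.isNonarchimedean _ _ _) (max_lt ?_ hC)
    exact lt_of_le_of_lt (PadicAlgCl.isNonarchimedean _ _ _) (max_lt hA hB)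
  · intro q' hq' g
    rw [hφ]
    refine IsUltrametricDist.norm_sum_le_of_forall_le_of_nonneg zero_le_one ?_
    intro q hq
    have hne : q' ≠ q := fun h => hq' (h ▸ hq)
    rw [norm_mul]
    exact (mul_le_mul_of_nonneg_right (he3 q q' hne) (norm_nonneg _)).trans (hm q hq q' g)

end

end Fermat.Agent.S55Lib
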